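import Mathlib
import Fermat.Agent.MUL.S36.Igusa.Defs
import Fermat.Agent.MUL.Lib.Kronecker.ConjGens
import Fermat.Agent.MUL.S36.G.CoreWire

section MergeWrap_S36_Igusa_Exp -- from S36/Igusa/Exp.lean

set_option autoImplicit false
set_option linter.style.haveILetI false

noncomputable section

namespace Fermat.Agent.S36G

open ModularCurve AlgebraicCurve Fermat.Agent.Kronecker

local notation "Qb" => AlgebraicClosure ℚ

/-- a divisor of `M₀ q²` (`q` prime) divides `M₀ q` or is `d' q²` with `d' ∣ M₀`. -/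
theorem igx_dvd_cases {M₀ q d : ℕ} (hq : q.Prime) (hd : d ∣ M₀ * q * q) :
    d ∣ M₀ * q ∨ ∃ d', d' ∣ M₀ ∧ d = d' * q * q := by
  by_cases h1 : q ∣ d
  · obtain ⟨d1, rfl⟩ := h1
    have hd1 : d1 ∣ M₀ * q := by
      have : q * d1 ∣ q * (M₀ * q) := by
        rw [show q * (M₀ * q) = M₀ * q * q by ring]; exact hd
      exact (Nat.mul_dvd_mul_iff_left hq.pos).mp this
    by_cases h2 : q ∣ d1
    · obtain ⟨d2, rfl⟩ := h2
      right
      refine ⟨d2, ?_, by ring⟩
      have : q * d2 ∣ q * M₀ := by rw [mul_comm q M₀]; exact hd1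
      exact (Nat.mul_dvd_mul_iff_left hq.pos).mp this
    · left
      have hc : Nat.Coprime d1 q := (Nat.Coprime.symm ((Nat.Prime.coprime_iff_not_dvd hq).mpr h2))
      have : d1 ∣ M₀ := hc.dvd_of_dvd_mul_right hd1
      rw [mul_comm q d1]
      exact Nat.mul_dvd_mul_right this q
  · left
    have hc : Nat.Coprime d q := (Nat.Coprime.symm ((Nat.Prime.coprime_iff_not_dvd hq).mpr h1))
    exact hc.dvd_of_dvd_mul_right hd

/-- the generator `j(T^d)`, `d ∣ M₀ q`, is in the image of `π₁^*`. -/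
theorem igx_jdBar_alpha (M₀ q d : ℕ) [NeZero M₀] [NeZero q] [NeZero d] (hd : d ∣ M₀ * q)
    (hd' : d ∣ M₀ * q * q) :
    jdBar (M₀ * q * q) d hd' = heckeAlphaBar Qb (M₀ * q) q (jdBar (M₀ * q) d hd) := by
  apply Subtype.ext
  rw [coe_heckeAlphaBar, coe_jdBar, coe_jdBar]

/-- the generator `j(T^{d q²})`, `d ∣ M₀`, is in the image of `β²`. -/
theorem igx_jdBar_beta2 (M₀ q d : ℕ) [NeZero M₀] [NeZero q] [NeZero d] [NeZero (d * q * q)]
    (hd : d ∣ M₀) (hd' : d * q * q ∣ M₀ * q * q) :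
    jdBar (M₀ * q * q) (d * q * q) hd' =
      heckeBetaBar Qb (M₀ * q) q (heckeBetaBar Qb M₀ q (jdBar M₀ d hd)) := by
  apply Subtype.ext
  rw [coe_heckeBetaBar, coe_heckeBetaBar, coe_jdBar, coe_jdBar, qExpand_qExpand, qExpand_qExpand]
  exact qExpand_congr (by ring) _

/-- **(IG-UNIQ)** for `q` prime: the middle expansion attached to `z` is unique. -/
theorem igMidExpUnique (M₀ q : ℕ) [NeZero M₀] [NeZero q] (hq : q.Prime) :
    IgMidExpUnique M₀ q := by
  intro z ε ε' h h'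
  have key : (ε : ↥(modularFunctionFieldBar (M₀ * q * q)) →+* LaurentSeries Qb) =
      (ε' : ↥(modularFunctionFieldBar (M₀ * q * q)) →+* LaurentSeries Qb) := by
    apply ringHom_ext_FBar
    · intro c
      show ε (algebraMap Qb _ c) = ε' (algebraMap Qb _ c)
      rw [AlgHom.commutes, AlgHom.commutes]
    · intro d hdne hd
      show ε (jdBar (M₀ * q * q) d hd) = ε' (jdBar (M₀ * q * q) d hd)
      rcases igx_dvd_cases hq hd with h1 | ⟨d', hd', rfl⟩
      · rw [igx_jdBar_alpha M₀ q d h1 hd, h.alpha, h'.alpha]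
      · haveI : NeZero d' := ⟨by
          rintro rfl
          exact hdne.out (by simp)⟩
        rw [igx_jdBar_beta2 M₀ q d' hd' hd, h.beta2, h'.beta2]
  exact AlgHom.coe_ringHom_injective key

end Fermat.Agent.S36G
end
end MergeWrap_S36_Igusa_Exp
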