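import Mathlib
import Fermat.Agent.MUL.S36.Igusa.Defs
import Fermat.Agent.MUL.Orig.Lib.GaussInt.Galois
import Fermat.Agent.MUL.E.Desc.Kp.OrdToric

section MergeWrap_S36_Igusa_Gal -- from S36/Igusa/Gal.lean

set_option autoImplicit false
set_option linter.style.haveILetI false

noncomputable section

namespace Fermat.Agent.S36G

open ModularCurve AlgebraicCurve Fermat.Agent.GaussInt Fermat.Agent.Kronecker

local notation "Qb" => AlgebraicClosure ℚ

/-- `σ⁻¹ ∘ σ = id` coefficientwise. -/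
theorem igGal_coeffMap_symm (σ : Qb ≃ₐ[ℚ] Qb) (x : LaurentSeries Qb) :
    coeffMap (σ.symm : Qb →+* Qb) (coeffMap (σ : Qb →+* Qb) x) = x := by
  rw [coeffMap_coeffMap,
    coeffMap_congr (g := RingHom.id Qb) (RingHom.ext fun a => σ.symm_apply_apply a) x,
    coeffMap_id]

/-- `σ ∘ σ⁻¹ = id` coefficientwise. -/
theorem igGal_coeffMap_symm' (σ : Qb ≃ₐ[ℚ] Qb) (x : LaurentSeries Qb) :
    coeffMap (σ : Qb →+* Qb) (coeffMap (σ.symm : Qb →+* Qb) x) = x := by
  rw [coeffMap_coeffMap,
    coeffMap_congr (g := RingHom.id Qb) (RingHom.ext fun a => σ.apply_symm_apply a) x,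
    coeffMap_id]

/-- `coeffMap` commutes with `q ↦ q^n`. -/
theorem igGal_coeffMap_qExpand (σ : Qb →+* Qb) (n : ℕ) [NeZero n] (x : LaurentSeries Qb) :
    coeffMap σ (qExpand Qb n x) = qExpand Qb n (coeffMap σ x) := by
  ext m
  rw [coeffMap_coeff]
  by_cases h : (n : ℤ) ∣ m
  · obtain ⟨k, rfl⟩ := h
    rw [qExpand_coeff_mul, qExpand_coeff_mul, coeffMap_coeff]
  · rw [qExpand_coeff_of_not_dvd n _ h, qExpand_coeff_of_not_dvd n _ h, map_zero]

section Twist

variable {N : ℕ}

/-- the twisted expansion `f ↦ σ⁻¹ (ε (f^σ))`, a `ℚ̄`-algebra map. -/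
def igTwist (σ : Qb ≃ₐ[ℚ] Qb)
    (ε : ↥(modularFunctionFieldBar N) →ₐ[Qb] LaurentSeries Qb) :
    ↥(modularFunctionFieldBar N) →ₐ[Qb] LaurentSeries Qb :=
  { (coeffMap (σ.symm : Qb →+* Qb)).comp
      (ε.toRingHom.comp (arithmeticRingAut (modularFunctionFieldFull N) σ).toRingHom) with
    commutes' := fun c => by
      show coeffMap (σ.symm : Qb →+* Qb)
        (ε (arithmeticRingAut (modularFunctionFieldFull N) σ
          (algebraMap Qb ↥(modularFunctionFieldBar N) c))) = algebraMap Qb (LaurentSeries Qb) c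
      rw [arithmeticRingAut_algebraMap, AlgHom.commutes, coeffMap_algebraMap]
      congr 1
      exact σ.symm_apply_apply c }

theorem igTwist_apply (σ : Qb ≃ₐ[ℚ] Qb)
    (ε : ↥(modularFunctionFieldBar N) →ₐ[Qb] LaurentSeries Qb)
    (f : ↥(modularFunctionFieldBar N)) :
    igTwist σ ε f = coeffMap (σ.symm : Qb →+* Qb)
      (ε (arithmeticRingAut (modularFunctionFieldFull N) σ f)) := rfl

end Twist

variable {M₀ q : ℕ} [NeZero M₀] [NeZero q]

/-- the twist of the middle expansion attached to `σ z` is a middle expansion attached to `z`. -/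
theorem isMidExp_igTwist (σ : Qb ≃ₐ[ℚ] Qb) {z z' : Qbˣ} (hz : (z' : Qb) = σ (z : Qb))
    {ε' : ↥(modularFunctionFieldBar (M₀ * q * q)) →ₐ[Qb] LaurentSeries Qb}
    (hε' : IsMidExp M₀ q z' ε') : IsMidExp M₀ q z (igTwist σ ε') where
  alpha := fun y => by
    have h1 : arithmeticRingAut (modularFunctionFieldFull (M₀ * q * q)) σ
        (heckeAlphaBar Qb (M₀ * q) q y) =
        heckeAlphaBar Qb (M₀ * q) q (arithmeticRingAut (modularFunctionFieldFull (M₀ * q)) σ y) :=
      Subtype.ext (by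
        rw [coe_arithmeticRingAut_apply, coe_heckeAlphaBar, coe_heckeAlphaBar,
          coe_arithmeticRingAut_apply])
    rw [igTwist_apply, h1, hε'.alpha, coe_arithmeticRingAut_apply, igGal_coeffMap_symm]
  beta2 := fun y => by
    have h1 : arithmeticRingAut (modularFunctionFieldFull (M₀ * q * q)) σ
        (heckeBetaBar Qb (M₀ * q) q (heckeBetaBar Qb M₀ q y)) =
        heckeBetaBar Qb (M₀ * q) q (heckeBetaBar Qb M₀ q
          (arithmeticRingAut (modularFunctionFieldFull M₀) σ y)) :=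
      Subtype.ext (by
        show coeffMap (σ : Qb →+* Qb) (qExpand Qb q (qExpand Qb q (y : LaurentSeries Qb))) =
          qExpand Qb q (qExpand Qb q (coeffMap (σ : Qb →+* Qb) (y : LaurentSeries Qb)))
        rw [igGal_coeffMap_qExpand, igGal_coeffMap_qExpand])
    rw [igTwist_apply, h1, hε'.beta2, coe_arithmeticRingAut_apply, coeffMap_scaleL,
      igGal_coeffMap_symm]
    have hu : Units.map ((σ.symm : Qb →+* Qb) : Qb →* Qb) z' = z := by
      apply Units.ext
      show (σ.symm : Qb →+* Qb) (z' : Qb) = (z : Qb)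
      rw [hz]
      exact σ.symm_apply_apply _
    rw [hu]

/-- the residue field automorphism induced by an automorphism preserving `A`. -/
theorem igGal_exists_tau (A : ValuationSubring Qb) (σ : Qb ≃ₐ[ℚ] Qb)
    (hσ : ∀ c : Qb, c ∈ A ↔ σ c ∈ A) :
    ∃ (hσA : ∀ a ∈ A, (σ : Qb →+* Qb) a ∈ A)
      (τ : IsLocalRing.ResidueField A →+* IsLocalRing.ResidueField A),
      ∀ a : A, IsLocalRing.residue A (resA (σ : Qb →+* Qb) hσA a) =
        τ (IsLocalRing.residue A a) := by
  have hσA : ∀ a ∈ A, (σ : Qb →+* Qb) a ∈ A := fun a ha => (hσ a).mp ha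
  refine ⟨hσA, ?_⟩
  haveI : IsLocalHom (resA (σ : Qb →+* Qb) hσA) := by
    constructor
    intro a ha
    -- the inverse of `σ a` in `A` is the image of an element of `A`
    obtain ⟨b, hb⟩ := ha.exists_right_inv
    have hbσ : σ.symm (b : Qb) ∈ A := by
      rw [hσ, AlgEquiv.apply_symm_apply]
      exact b.2
    refine IsUnit.of_mul_eq_one (⟨σ.symm (b : Qb), hbσ⟩ : A) ?_
    apply Subtype.ext
    apply σ.injective
    have h1 : (σ : Qb →+* Qb) (a : Qb) * (b : Qb) = 1 := by
      have := congrArg (fun x : A => (x : Qb)) hb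
      simpa using this
    show σ ((a : Qb) * σ.symm (b : Qb)) = σ 1
    rw [map_mul, AlgEquiv.apply_symm_apply, map_one]
    exact h1
  exact ⟨IsLocalRing.ResidueField.map (resA (σ : Qb →+* Qb) hσA), fun a => rfl⟩

/-- the Gauss ring of `ℚ̄((q))` is stable under an automorphism preserving `A`. -/
theorem igGal_mem_gaussSub_iff (A : ValuationSubring Qb) (σ : Qb ≃ₐ[ℚ] Qb)
    (hσ : ∀ c : Qb, c ∈ A ↔ σ c ∈ A) (x : LaurentSeries Qb) :
    x ∈ gaussSub A (⊤ : IntermediateField Qb (LaurentSeries Qb)) ↔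
      coeffMap (σ : Qb →+* Qb) x ∈ gaussSub A (⊤ : IntermediateField Qb (LaurentSeries Qb)) := by
  constructor
  · intro hx
    obtain ⟨hσA, τ, hτ⟩ := igGal_exists_tau A σ hσ
    exact coeffMap_mem_gaussSub (σ : Qb →+* Qb) hσA τ hτ (fun _ _ => IntermediateField.mem_top) hx
  · intro hx
    have hσ' : ∀ c : Qb, c ∈ A ↔ σ.symm c ∈ A := fun c => by
      rw [hσ (σ.symm c), AlgEquiv.apply_symm_apply]
    obtain ⟨hσA, τ, hτ⟩ := igGal_exists_tau A σ.symm hσ'
    have := coeffMap_mem_gaussSub (σ.symm : Qb →+* Qb) hσA τ hτ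
      (fun _ _ => IntermediateField.mem_top) hx
    rwa [igGal_coeffMap_symm] at this

/-- **(IG4) = IG-GAL**: the Galois action on the middle valuations, from the uniqueness of the
middle expansions. -/
theorem igMidGalois_of_unique (hU : IgMidExpUnique M₀ q) : IgMidGalois M₀ q := by
  intro A σ hσ z z' ε ε' hε hε' hz f f' hf
  have hf' : f' = arithmeticRingAut (modularFunctionFieldFull (M₀ * q * q)) σ f :=
    Subtype.ext hf
  have hT : igTwist σ ε' = ε := hU z _ _ (isMidExp_igTwist σ hz hε') hε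
  have h1 : ε' f' = coeffMap (σ : Qb →+* Qb) (ε f) := by
    rw [← hT, igTwist_apply, igGal_coeffMap_symm', hf']
  refine ⟨h1, ?_⟩
  rw [mem_expOv_iff, mem_expOv_iff, h1]
  exact igGal_mem_gaussSub_iff A σ hσ (ε f)

end Fermat.Agent.S36G
end
end MergeWrap_S36_Igusa_Gal
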