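import Mathlib
import Fermat.Prelude.Def_AlgebraicCurve_Correspondence
import Fermat.Agent.MUL.Orig.S24.Residue
import Fermat.Agent.MUL.Lib.RedTr.Basic
import Fermat.Agent.MUL.Lib.BadRed.Mod.SSCount
import Fermat.Agent.MUL.S28.FormalUnit
import Fermat.Agent.MUL.S36.Igusa.Defs
import Fermat.Agent.MUL.S36.Igusa.Kummer
import Fermat.Agent.MUL.Lib.RR.OfModularCFinal
import Fermat.Agent.MUL.Orig.Lib.RR.Basic
import Fermat.Agent.MUL.Lib.RR.Hurwitz.Norm
import Fermat.Agent.MUL.Lib.GoodRed.Small.PolyOrd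
import Fermat.Agent.MUL.Lib.GoodRed.Modular
import Fermat.Agent.MUL.Lib.IgusaDeg.UMem

section MergeWrap_S36_Igusa_RamAbs -- from S36/Igusa/RamAbs.lean

set_option autoImplicit false
set_option linter.style.haveILetI false

noncomputable section

namespace Fermat.Agent.S36G

open AlgebraicCurve Fermat.Agent.S24Res

section OneField

variable {K F : Type*} [Field K] [Field F] [Algebra K F]

theorem igram_ord_pow (P : Place K F) (x : F) (n : ℕ) : P.ord (x ^ n) = n * P.ord x := by
  have h := P.ord_zpow x (n : ℤ)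
  rwa [zpow_natCast] at h

/-- **two places with `𝔪_P ⊆ 𝔪_{P'}` coincide.** -/
theorem igram_place_eq_of_pos (P P' : Place K F)
    (h : ∀ x : F, 0 < P.ord x → 0 < P'.ord x) : P' = P := by
  obtain ⟨π, hπ⟩ := IsDiscreteValuationRing.exists_irreducible P.toValuationSubring
  have hπ1 : P.ord (π : F) = 1 := P.ord_coe_irreducible hπ
  have hπ0 : (π : F) ≠ 0 := by
    intro h0
    rw [h0, Place.ord_zero] at hπ1
    omega
  have hN : 0 < P'.ord (π : F) := h _ (by omega)
  apply Place.ext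
  ext x
  rw [mem_iff_ord_nonneg, mem_iff_ord_nonneg]
  constructor
  · intro hx
    by_contra hneg
    have h1 := h x⁻¹ (by rw [P.ord_inv]; omega)
    rw [P'.ord_inv] at h1
    omega
  · intro hx
    by_contra hneg
    have hx0 : x ≠ 0 := by
      rintro rfl
      rw [Place.ord_zero] at hneg
      omega
    set N : ℕ := (P'.ord (π : F)).toNat with hNdef
    have hNeq : (N : ℤ) = P'.ord (π : F) := Int.toNat_of_nonneg hN.le
    have hz0 : x ^ (N + 1) ≠ 0 := pow_ne_zero _ hx0
    have h1 : P.ord (x ^ (N + 1) * (π : F)) = ((N + 1 : ℕ) : ℤ) * P.ord x + 1 := by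
      rw [P.ord_mul hz0 hπ0, igram_ord_pow, hπ1]
    have h2 : P'.ord (x ^ (N + 1) * (π : F)) = ((N + 1 : ℕ) : ℤ) * P'.ord x + N := by
      rw [P'.ord_mul hz0 hπ0, igram_ord_pow, hNeq]
    have h3 : 0 < P.ord (x ^ (N + 1) * (π : F)) := by
      rw [h1]
      have : 0 ≤ ((N + 1 : ℕ) : ℤ) * P.ord x := mul_nonneg (by positivity) hx
      omega
    have h4 := h _ h3
    rw [h2] at h4
    have h5 : ((N + 1 : ℕ) : ℤ) * P'.ord x ≤ ((N + 1 : ℕ) : ℤ) * (-1) :=
      mul_le_mul_of_nonneg_left (by omega) (by positivity)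
    push_cast at h4 h5
    omega

/-- strict ultrametric for finite sums with pairwise distinct orders. -/
theorem igram_ord_sum {ι : Type*} [DecidableEq ι] (Q : Place K F) (s : Finset ι) (T : ι → F)
    (hs : s.Nonempty) (h0 : ∀ i ∈ s, T i ≠ 0)
    (hinj : ∀ i ∈ s, ∀ j ∈ s, Q.ord (T i) = Q.ord (T j) → i = j) :
    ∃ j ∈ s, (∑ i ∈ s, T i) ≠ 0 ∧ Q.ord (∑ i ∈ s, T i) = Q.ord (T j) ∧
      ∀ i ∈ s, Q.ord (T j) ≤ Q.ord (T i) := by
  obtain ⟨j, hj, hmin⟩ := Finset.exists_min_image s (fun i => Q.ord (T i)) hs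
  have hval : ∀ i ∈ s, Q.adicValuation (T i) = WithZero.exp (-Q.ord (T i)) := fun i hi =>
    Q.adicValuation_eq_exp_neg_ord (h0 i hi)
  have hlt : ∀ i ∈ s \ {j}, Q.adicValuation (T i) < Q.adicValuation (T j) := by
    intro i hi
    rw [Finset.mem_sdiff, Finset.mem_singleton] at hi
    rw [hval i hi.1, hval j hj, WithZero.exp_lt_exp]
    have h1 := hmin i hi.1
    have h2 : Q.ord (T i) ≠ Q.ord (T j) := fun h => hi.2 (hinj i hi.1 j hj h)
    have h3 : Q.ord (T j) < Q.ord (T i) := lt_of_le_of_ne h1 (Ne.symm h2)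
    omega
  have hsum := Valuation.map_sum_eq_of_lt Q.adicValuation hj hlt
  have hne : (∑ i ∈ s, T i) ≠ 0 := by
    intro h
    rw [h, map_zero] at hsum
    exact Q.adicValuation_ne_zero (h0 j hj) hsum.symm
  refine ⟨j, hj, hne, ?_, hmin⟩
  unfold Place.ord
  rw [hsum]

end OneField

section TwoFields

variable {K F L : Type*} [Field K] [Field F] [Field L] [Algebra K F] [Algebra K L]

/-- a place `Q` of `L` which is positive on `φ 𝔪_P` lies over `P`:
`ord_Q (φ x) = e · ord_P x` with `e > 0`. -/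
theorem igram_exists_ram (φ : F →ₐ[K] L) (hφ : φ.toRingHom.IsIntegral) (P : Place K F)
    (Q : Place K L) (hQ : ∀ x : F, 0 < P.ord x → 0 < Q.ord (φ x)) :
    ∃ e : ℤ, 0 < e ∧ ∀ x : F, Q.ord (φ x) = e * P.ord x := by
  have hepos : (0 : ℤ) < (Q.ramificationIndexAlong φ : ℤ) := by
    exact_mod_cast Fermat.Agent.RedTr.ramificationIndexAlong_pos φ hφ Q
  have hres : Q.restrictAlong φ hφ = P := by
    refine igram_place_eq_of_pos P _ fun x hx => ?_
    have h1 := hQ x hx
    rw [Place.ord_restrictAlong φ hφ] at h1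
    exact (mul_pos_iff_of_pos_left hepos).mp h1
  refine ⟨Q.ramificationIndexAlong φ, hepos, fun x => ?_⟩
  rw [Place.ord_restrictAlong φ hφ, hres]

variable (φ : F →ₐ[K] L) (y : L) (d : ℕ) (t : F)

/-- the order of a term `φ a · y ^ i`, multiplied by `d`. -/
theorem igram_ord_term (hy : y ≠ 0) (ht : φ t = y ^ d) (P : Place K F) (Q : Place K L) (e : ℤ)
    (he : ∀ x : F, Q.ord (φ x) = e * P.ord x) {a : F} (ha : a ≠ 0) (i : ℕ) :
    (d : ℤ) * Q.ord (φ a * y ^ i) = e * ((d : ℤ) * P.ord a + i * P.ord t) := by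
  have hφa : φ a ≠ 0 := (map_ne_zero φ.toRingHom).mpr ha
  have h1 : (d : ℤ) * Q.ord y = e * P.ord t := by
    rw [← he t, ht, igram_ord_pow]
  rw [Q.ord_mul hφa (pow_ne_zero _ hy), igram_ord_pow, he a]
  linear_combination (i : ℤ) * h1

/-- the orders of the terms `φ (a i) · y ^ i`, `i < d`, are pairwise distinct. -/
theorem igram_ord_term_inj (hd : 0 < d) (hy : y ≠ 0) (ht : φ t = y ^ d) (P : Place K F)
    (hcop : IsCoprime (d : ℤ) (P.ord t)) (Q : Place K L) (e : ℤ) (hepos : 0 < e)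
    (he : ∀ x : F, Q.ord (φ x) = e * P.ord x) (a : Fin d → F) (i j : Fin d)
    (hi : a i ≠ 0) (hj : a j ≠ 0)
    (h : Q.ord (φ (a i) * y ^ (i : ℕ)) = Q.ord (φ (a j) * y ^ (j : ℕ))) : i = j := by
  have h1 := igram_ord_term φ y d t hy ht P Q e he hi (i : ℕ)
  have h2 := igram_ord_term φ y d t hy ht P Q e he hj (j : ℕ)
  rw [h] at h1
  have h3 : e * ((d : ℤ) * P.ord (a i) + (i : ℕ) * P.ord t) =
      e * ((d : ℤ) * P.ord (a j) + (j : ℕ) * P.ord t) := by rw [← h1, ← h2]
  have h4 := mul_left_cancel₀ hepos.ne' h3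
  have h5 : (d : ℤ) ∣ (((i : ℕ) : ℤ) - ((j : ℕ) : ℤ)) * P.ord t :=
    ⟨P.ord (a j) - P.ord (a i), by linear_combination h4⟩
  have h6 : (d : ℤ) ∣ ((i : ℕ) : ℤ) - ((j : ℕ) : ℤ) := hcop.dvd_of_dvd_mul_right h5
  have hi' := i.2
  have hj' := j.2
  apply Fin.ext
  obtain ⟨c, hc⟩ := h6
  have hd' : (0 : ℤ) < d := by exact_mod_cast hd
  have hc0 : c = 0 := by
    have hlt : ((i : ℕ) : ℤ) - ((j : ℕ) : ℤ) < d := by omega
    have hgt : -(d : ℤ) < ((i : ℕ) : ℤ) - ((j : ℕ) : ℤ) := by omega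
    rw [hc] at hlt hgt
    have h1 : c < 1 := by
      by_contra hcon
      have : (d : ℤ) * 1 ≤ d * c := mul_le_mul_of_nonneg_left (by omega) hd'.le
      omega
    have h2 : -1 < c := by
      by_contra hcon
      have : (d : ℤ) * c ≤ d * (-1) := mul_le_mul_of_nonneg_left (by omega) hd'.le
      omega
    omega
  rw [hc0, mul_zero] at hc
  omega

/-- **linear independence of `1, y, …, y^(d-1)` over `K₀`** (given a place of `L` over `P`):
a combination with some nonzero coefficient is nonzero. -/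
theorem igram_sum_ne_zero (hφ : φ.toRingHom.IsIntegral) (hd : 0 < d) (hy : y ≠ 0)
    (ht : φ t = y ^ d) (P : Place K F) (hcop : IsCoprime (d : ℤ) (P.ord t)) (Q : Place K L)
    (hQ : ∀ x : F, 0 < P.ord x → 0 < Q.ord (φ x)) (a : Fin d → F) (ha : a ≠ 0) :
    ∑ i, φ (a i) * y ^ (i : ℕ) ≠ 0 := by
  classical
  obtain ⟨e, hepos, he⟩ := igram_exists_ram φ hφ P Q hQ
  set s : Finset (Fin d) := Finset.univ.filter fun i => a i ≠ 0 with hs
  have hsum : ∑ i, φ (a i) * y ^ (i : ℕ) = ∑ i ∈ s, φ (a i) * y ^ (i : ℕ) := by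
    rw [hs, Finset.sum_filter]
    refine Finset.sum_congr rfl fun i _ => ?_
    by_cases h : a i = 0
    · simp [h]
    · simp [h]
  have hne : s.Nonempty := by
    by_contra hcon
    rw [Finset.not_nonempty_iff_eq_empty] at hcon
    apply ha
    funext i
    by_contra hi
    have : i ∈ s := by rw [hs, Finset.mem_filter]; exact ⟨Finset.mem_univ _, hi⟩
    rw [hcon] at this
    exact absurd this (Finset.notMem_empty _)
  have hmem : ∀ i ∈ s, a i ≠ 0 := fun i hi => (Finset.mem_filter.mp hi).2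
  obtain ⟨j, -, hne0, -, -⟩ := igram_ord_sum Q s (fun i => φ (a i) * y ^ (i : ℕ)) hne
    (fun i hi => mul_ne_zero ((map_ne_zero φ.toRingHom).mpr (hmem i hi)) (pow_ne_zero _ hy))
    (fun i hi j hj h => igram_ord_term_inj φ y d t hd hy ht P hcop Q e hepos he a i j
      (hmem i hi) (hmem j hj) h)
  rw [hsum]
  exact hne0

/-- one inclusion of the valuation rings of two places over `P`. -/
theorem igram_mem_of_mem (hφ : φ.toRingHom.IsIntegral) (hd : 0 < d) (hy : y ≠ 0)
    (ht : φ t = y ^ d)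
    (hgen : ∀ z : L, ∃ a : Fin d → F, z = ∑ i, φ (a i) * y ^ (i : ℕ))
    (P : Place K F) (hcop : IsCoprime (d : ℤ) (P.ord t)) (Q Q' : Place K L)
    (hQ : ∀ x : F, 0 < P.ord x → 0 < Q.ord (φ x))
    (hQ' : ∀ x : F, 0 < P.ord x → 0 < Q'.ord (φ x)) (z : L)
    (hz : z ∈ Q.toValuationSubring) : z ∈ Q'.toValuationSubring := by
  classical
  obtain ⟨e, hepos, he⟩ := igram_exists_ram φ hφ P Q hQ
  obtain ⟨e', hepos', he'⟩ := igram_exists_ram φ hφ P Q' hQ'
  obtain ⟨a, rfl⟩ := hgen z
  set s : Finset (Fin d) := Finset.univ.filter fun i => a i ≠ 0 with hs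
  have hsum : ∑ i, φ (a i) * y ^ (i : ℕ) = ∑ i ∈ s, φ (a i) * y ^ (i : ℕ) := by
    rw [hs, Finset.sum_filter]
    refine Finset.sum_congr rfl fun i _ => ?_
    by_cases h : a i = 0
    · simp [h]
    · simp [h]
  rw [hsum] at hz ⊢
  have hmem : ∀ i ∈ s, a i ≠ 0 := fun i hi => (Finset.mem_filter.mp hi).2
  by_cases hne : s.Nonempty
  · obtain ⟨j, hj, -, hord, hmin⟩ := igram_ord_sum Q s (fun i => φ (a i) * y ^ (i : ℕ)) hne
      (fun i hi => mul_ne_zero ((map_ne_zero φ.toRingHom).mpr (hmem i hi)) (pow_ne_zero _ hy))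
      (fun i hi j hj h => igram_ord_term_inj φ y d t hd hy ht P hcop Q e hepos he a i j
        (hmem i hi) (hmem j hj) h)
    rw [mem_iff_ord_nonneg, hord] at hz
    refine sum_mem fun i hi => ?_
    rw [mem_iff_ord_nonneg]
    have h1 : 0 ≤ Q.ord (φ (a i) * y ^ (i : ℕ)) := le_trans hz (hmin i hi)
    have h2 := igram_ord_term φ y d t hy ht P Q e he (hmem i hi) (i : ℕ)
    have h3 := igram_ord_term φ y d t hy ht P Q' e' he' (hmem i hi) (i : ℕ)
    have hd' : (0 : ℤ) < d := by exact_mod_cast hd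
    have h4 : 0 ≤ e * ((d : ℤ) * P.ord (a i) + (i : ℕ) * P.ord t) := by
      rw [← h2]
      exact mul_nonneg hd'.le h1
    have h5 : 0 ≤ (d : ℤ) * P.ord (a i) + (i : ℕ) * P.ord t :=
      nonneg_of_mul_nonneg_right h4 hepos
    have h6 : 0 ≤ (d : ℤ) * Q'.ord (φ (a i) * y ^ (i : ℕ)) := by
      rw [h3]
      exact mul_nonneg hepos'.le h5
    exact nonneg_of_mul_nonneg_right h6 hd'
  · rw [Finset.not_nonempty_iff_eq_empty] at hne
    rw [hne, Finset.sum_empty]
    exact zero_mem _

/-- **total ramification**: `L = K₀(y)`, `y ^ d = t`, `gcd (d, ord_P t) = 1`: at most one place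
of `L` lies over `P`. -/
theorem igram_place_unique (hφ : φ.toRingHom.IsIntegral) (hd : 0 < d) (hy : y ≠ 0)
    (ht : φ t = y ^ d)
    (hgen : ∀ z : L, ∃ a : Fin d → F, z = ∑ i, φ (a i) * y ^ (i : ℕ))
    (P : Place K F) (hcop : IsCoprime (d : ℤ) (P.ord t)) (Q Q' : Place K L)
    (hQ : ∀ x : F, 0 < P.ord x → 0 < Q.ord (φ x))
    (hQ' : ∀ x : F, 0 < P.ord x → 0 < Q'.ord (φ x)) : Q = Q' := by
  apply Place.ext
  ext z
  exact ⟨igram_mem_of_mem φ y d t hφ hd hy ht hgen P hcop Q Q' hQ hQ' z,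
    igram_mem_of_mem φ y d t hφ hd hy ht hgen P hcop Q' Q hQ' hQ z⟩

end TwoFields

end Fermat.Agent.S36G
end
end MergeWrap_S36_Igusa_RamAbs

section MergeWrap_S36_Igusa_RamMult -- from S36/Igusa/RamMult.lean

set_option autoImplicit false
set_option linter.unusedSectionVars false
set_option linter.style.haveILetI false

noncomputable section

open Fermat.Agent.S16SwD MvPolynomial ModularCurve
open Fermat.Agent.SwD (zmap evK miller e2Z e4Z e6Z deltaZ)
open Fermat.Agent.BadRed Fermat.Agent.S28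

namespace Fermat.Agent.S36G

section Mult

variable {κ : Type*} [Field κ]

/-- `X i ∤ G` if `G` does not vanish at a point with `x i = 0`. -/
lemma igram_not_X_dvd (i : Fin 2) (x : Fin 2 → κ) (hx : x i = 0)
    {G : MvPolynomial (Fin 2) κ} (hG : MvPolynomial.eval x G ≠ 0) :
    ¬ (X i : MvPolynomial (Fin 2) κ) ∣ G := by
  rintro ⟨H, rfl⟩
  apply hG
  rw [map_mul, MvPolynomial.eval_X, hx, zero_mul]

/-- the exact power of `X i` in `c X i ^ b G`, `G` not vanishing at a point with `x i = 0`. -/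
lemma igram_le_of_X_pow_dvd (i : Fin 2) (x : Fin 2 → κ) (hx : x i = 0) {c : κ} (hc : c ≠ 0)
    {G : MvPolynomial (Fin 2) κ} (hG : MvPolynomial.eval x G ≠ 0) {a b : ℕ}
    (h : (X i : MvPolynomial (Fin 2) κ) ^ a ∣ (C c * X i ^ b) * G) : a ≤ b := by
  by_contra hlt
  rw [not_le] at hlt
  have h1 : (X i : MvPolynomial (Fin 2) κ) ^ (b + 1) ∣ X i ^ b * (C c * G) := by
    refine (pow_dvd_pow _ hlt).trans ?_
    have e : (X i : MvPolynomial (Fin 2) κ) ^ b * (C c * G) = (C c * X i ^ b) * G := by ring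
    rw [e]
    exact h
  rw [pow_succ] at h1
  have h2 : (X i : MvPolynomial (Fin 2) κ) ∣ C c * G :=
    (mul_dvd_mul_iff_left (pow_ne_zero b (MvPolynomial.X_ne_zero i))).mp h1
  exact igram_not_X_dvd i x hx (G := C c * G)
    (by rw [map_mul, MvPolynomial.eval_C]; exact mul_ne_zero hc hG) h2

end Mult

section Hasse

variable (k : Type) [Field k] (q : ℕ) [hq : Fact q.Prime] [CharP k q]

/-- **the supersingular polynomial with the exact multiplicities at `0` and `1728`.** -/
theorem igram_ssPoly (h5 : 5 ≤ q) :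
    ∃ (P : Polynomial k) (u₀ : k), u₀ ≠ 0 ∧ P ≠ 0 ∧
      ssFun k q = HahnSeries.C u₀ * Polynomial.aeval (jqModC k) P ∧
      (P.IsRoot 0 → P.rootMultiplicity 0 = 4) ∧
      (P.IsRoot 1728 → P.rootMultiplicity 1728 = 6) := by
  have h1728 : (1728 : k) ≠ 0 := Fermat.Agent.SwD.ne_zero_1728 q h5
  have hq1 : 1 ≤ q := hq.out.one_le
  obtain ⟨A, hA, hA1⟩ := exists_hasse k q h5
  have hA0 : A ≠ 0 := by
    rintro rfl
    rw [map_zero] at hA1
    exact zero_ne_one hA1
  have hA12 : IsWeightedHomogeneous wt (A ^ 12) (12 * (q - 1)) := by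
    have := hA.pow 12
    rwa [smul_eq_mul] at this
  obtain ⟨P, hPdeg, hAP⟩ := exists_ssHom_eq h1728 (q - 1) (A ^ 12) hA12
  have hkey : ssD k ^ (q - 1) * Polynomial.aeval (jqModC k) P = 1 := by
    rw [← ofPS_evK_ssHom k hPdeg, ← hAP, map_pow, hA1, one_pow, map_one]
  have hP0 : P ≠ 0 := by
    rintro rfl
    rw [map_zero, mul_zero] at hkey
    exact zero_ne_one hkey
  have hsq : ∀ π : MvPolynomial (Fin 2) k, Prime π → ¬ π ^ 2 ∣ A := fun π hπ =>
    (ssRam k q h5).not_sq_dvd q hA hA1 hπ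
  have hexact : ∀ (c : k) (i : Fin 2) (e : ℕ) (x : Fin 2 → k), 0 < e →
      ssLin c = C 1728 * X i ^ e → x i = 0 →
      (∀ (m : ℕ) (P₁ : Polynomial k), P₁.natDegree ≤ m → ¬ P₁.IsRoot c →
        MvPolynomial.eval x (ssHom m P₁) ≠ 0) →
      P.IsRoot c → e * P.rootMultiplicity c = 12 := by
    intro c i e x he hlin hx hev hroot
    have hmpos : 0 < P.rootMultiplicity c := (Polynomial.rootMultiplicity_pos hP0).mpr hroot
    obtain ⟨P₁, hP₁, hnd⟩ := Polynomial.exists_eq_pow_rootMultiplicity_mul_and_not_dvd P hP0 c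
    generalize P.rootMultiplicity c = m at hmpos hP₁ ⊢
    have hP₁0 : P₁ ≠ 0 := by
      rintro rfl
      rw [mul_zero] at hP₁
      exact hP0 hP₁
    have hdeg : P.natDegree = m + P₁.natDegree := by
      rw [hP₁, Polynomial.natDegree_mul (pow_ne_zero _ (Polynomial.X_sub_C_ne_zero c)) hP₁0,
        Polynomial.natDegree_pow, Polynomial.natDegree_X_sub_C, mul_one]
    have hP₁m : P₁.natDegree ≤ (q - 1) - m := by omega
    have hme : q - 1 = ((q - 1) - m) + m := by omega
    have hfac : A ^ 12 = (C 1728 * X i ^ e) ^ m * ssHom ((q - 1) - m) P₁ := by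
      have h1 : ssHom (q - 1) P = ssHom (((q - 1) - m) + m) ((Polynomial.X - Polynomial.C c) ^ m * P₁) := by
        rw [← hme, ← hP₁]
      rw [hAP, h1, ssHom_lin_pow_mul m hP₁m, hlin]
    have hG : MvPolynomial.eval x (ssHom ((q - 1) - m) P₁) ≠ 0 :=
      hev _ _ hP₁m (fun h => hnd (Polynomial.dvd_iff_isRoot.mpr h))
    have hXA : (X i : MvPolynomial (Fin 2) k) ∣ A := by
      have h1 : (X i : MvPolynomial (Fin 2) k) ∣ A ^ 12 := by
        rw [hfac]
        refine Dvd.dvd.mul_right ?_ _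
        refine dvd_pow ?_ hmpos.ne'
        exact Dvd.dvd.mul_left (dvd_pow_self _ he.ne') _
      exact (MvPolynomial.X_prime).dvd_of_dvd_pow h1
    have hfac' : A ^ 12 = (C ((1728 : k) ^ m) * X i ^ (e * m)) * ssHom ((q - 1) - m) P₁ := by
      rw [hfac, mul_pow, ← pow_mul, map_pow]
    have h12 : (X i : MvPolynomial (Fin 2) k) ^ 12 ∣
        (C ((1728 : k) ^ m) * X i ^ (e * m)) * ssHom ((q - 1) - m) P₁ := by
      rw [← hfac']
      exact pow_dvd_pow_of_dvd hXA 12
    have hge : 12 ≤ e * m := igram_le_of_X_pow_dvd i x hx (pow_ne_zero _ h1728) hG h12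
    have hle : e * m ≤ 12 := by
      have h2 : (X i : MvPolynomial (Fin 2) k) ^ (e * m) ∣ A ^ 12 := by
        rw [hfac']
        exact Dvd.dvd.mul_right (Dvd.dvd.mul_left (dvd_refl _) _) _
      exact le_of_prime_pow_dvd_pow hA0 MvPolynomial.X_prime (hsq _ MvPolynomial.X_prime) h2
    omega
  refine ⟨P, 1728 ^ (q - 1), pow_ne_zero _ h1728, hP0, ?_, ?_, ?_⟩
  · have h := ssFun_mul_ssD_pow k q hq1
    calc ssFun k q = ssFun k q * (ssD k ^ (q - 1) * Polynomial.aeval (jqModC k) P) := by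
          rw [hkey, mul_one]
      _ = (ssFun k q * ssD k ^ (q - 1)) * Polynomial.aeval (jqModC k) P := by ring
      _ = _ := by rw [h]
  · intro hroot
    have h := hexact 0 0 3 ![0, 1] (by norm_num) ssLin_zero rfl (fun m P₁ _ hnr => by
      rw [eval_ssHom_zero_one]
      refine mul_ne_zero ?_ (pow_ne_zero _ (neg_ne_zero.mpr one_ne_zero))
      rw [Polynomial.coeff_zero_eq_eval_zero]
      exact hnr) hroot
    omega
  · intro hroot
    have h := hexact 1728 1 2 ![1, 0] (by norm_num) ssLin_1728 rfl (fun m P₁ hm hnr => by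
      rw [eval_ssHom_one_zero hm]
      exact hnr) hroot
    omega

end Hasse

section Delta

variable (k : Type*) [Field k]

/-- `1728 Δ = 1728 · Δ`. -/
theorem igram_ssD_eq : ssD k = HahnSeries.C (1728 : k) * wp10_DeltaF k := by
  rw [ssD_eq, wp10_DeltaF_eq, mul_assoc]

/-- **`Δ̄ ^ (1 - q) · Δ̄ ^ (q - 1) = 1`** (`1728 ≠ 0`). -/
theorem igram_ssFun_mul_delta (h1728 : (1728 : k) ≠ 0) (q : ℕ) (hq : 1 ≤ q) :
    ssFun k q * wp10_DeltaF k ^ (q - 1) = 1 := by
  have h := ssFun_mul_ssD_pow k q hq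
  rw [igram_ssD_eq, mul_pow, ← map_pow] at h
  have hc : HahnSeries.C (Γ := ℤ) ((1728 : k) ^ (q - 1)) ≠ 0 := by
    rw [ne_eq, map_eq_zero_iff _ HahnSeries.C_injective]
    exact pow_ne_zero _ h1728
  apply mul_left_cancel₀ hc
  linear_combination h

end Delta

end Fermat.Agent.S36G
end
end MergeWrap_S36_Igusa_RamMult

section MergeWrap_S36_Igusa_RamGen -- from S36/Igusa/RamGen.lean

set_option autoImplicit false
set_option linter.style.haveILetI false

noncomputable section

namespace Fermat.Agent.S36G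

open Polynomial

section Gen

variable {k E : Type*} [Field k] [Field E] [Algebra k E]

/-- `y` is integral over `F` if `y ^ d ∈ F`, `d > 0`. -/
theorem igram_isIntegral_of_pow_mem (F : IntermediateField k E) (y : E) (d : ℕ) (hd : 0 < d)
    (hyd : y ^ d ∈ F) : IsIntegral F y := by
  refine ⟨X ^ d - C (⟨y ^ d, hyd⟩ : F), monic_X_pow_sub_C _ hd.ne', ?_⟩
  rw [← aeval_def]
  simp only [map_sub, map_pow, aeval_X, aeval_C]
  exact sub_self _

/-- `adjoin k (F ∪ {y}) = F(y)`. -/
theorem igram_adjoin_eq (F : IntermediateField k E) (y : E) :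
    IntermediateField.adjoin k ((F : Set E) ∪ {y}) =
      (IntermediateField.adjoin F {y}).restrictScalars k :=
  (IntermediateField.restrictScalars_adjoin k F {y}).symm

/-- every element of `F(y)`, `y ^ d ∈ F`, is `∑_{i < d} a_i y ^ i`. -/
theorem igram_gen (F : IntermediateField k E) (y : E) (d : ℕ) (hd : 0 < d) (hyd : y ^ d ∈ F)
    {z : E} (hz : z ∈ IntermediateField.adjoin k ((F : Set E) ∪ {y})) :
    ∃ a : Fin d → F, z = ∑ i, (a i : E) * y ^ (i : ℕ) := by
  rw [igram_adjoin_eq, IntermediateField.mem_restrictScalars] at hz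
  have hint : IsIntegral F y := igram_isIntegral_of_pow_mem F y d hd hyd
  have h2 : z ∈ Algebra.adjoin F {y} := by
    rw [← IntermediateField.adjoin_simple_toSubalgebra_of_isAlgebraic hint.isAlgebraic]
    exact hz
  rw [Algebra.adjoin_singleton_eq_range_aeval] at h2
  obtain ⟨p, rfl⟩ := h2
  set g : F[X] := X ^ d - C (⟨y ^ d, hyd⟩ : F) with hg
  have hgm : g.Monic := monic_X_pow_sub_C _ hd.ne'
  have hg0 : aeval y g = 0 := by
    rw [hg]
    simp only [map_sub, map_pow, aeval_X, aeval_C]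
    exact sub_self _
  have h3 : aeval y p = aeval y (p %ₘ g) := by
    conv_lhs => rw [← Polynomial.modByMonic_add_div p g]
    rw [map_add, map_mul, hg0, zero_mul, add_zero]
  have hgd : g.natDegree = d := natDegree_X_pow_sub_C
  have hdeg : (p %ₘ g).natDegree < d := by
    have h := Polynomial.natDegree_modByMonic_lt p hgm (by
      intro h1
      have := congrArg Polynomial.natDegree h1
      rw [hgd, natDegree_one] at this
      omega)
    rwa [hgd] at h
  refine ⟨fun i => (p %ₘ g).coeff i, ?_⟩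
  show aeval y p = _
  rw [h3, Polynomial.aeval_eq_sum_range' hdeg, Fin.sum_univ_eq_sum_range
    (fun i => (((p %ₘ g).coeff i : F) : E) * y ^ i) d]
  refine Finset.sum_congr rfl fun i _ => ?_
  rw [Algebra.smul_def]
  rfl

/-- `[F(y) : F] = deg minpoly`. -/
theorem igram_relfinrank_eq (F : IntermediateField k E) (y : E) (hint : IsIntegral F y) :
    IntermediateField.relfinrank F (IntermediateField.adjoin k ((F : Set E) ∪ {y})) =
      (minpoly F y).natDegree := by
  have hle : F ≤ IntermediateField.adjoin k ((F : Set E) ∪ {y}) := fun x hx =>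
    IntermediateField.subset_adjoin k _ (Or.inl hx)
  rw [IntermediateField.relfinrank_eq_finrank_of_le hle]
  have h1 : IntermediateField.extendScalars hle = IntermediateField.adjoin F {y} := by
    apply IntermediateField.restrictScalars_injective k
    rw [IntermediateField.extendScalars_restrictScalars, igram_adjoin_eq]
  rw [h1]
  exact IntermediateField.adjoin.finrank hint

/-- `[F(y) : F] ≤ d` if `y ^ d ∈ F`. -/
theorem igram_relfinrank_le (F : IntermediateField k E) (y : E) (d : ℕ) (hd : 0 < d)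
    (hyd : y ^ d ∈ F) :
    IntermediateField.relfinrank F (IntermediateField.adjoin k ((F : Set E) ∪ {y})) ≤ d := by
  have hint : IsIntegral F y := igram_isIntegral_of_pow_mem F y d hd hyd
  rw [igram_relfinrank_eq F y hint]
  set g : F[X] := X ^ d - C (⟨y ^ d, hyd⟩ : F) with hg
  have hgm : g.Monic := monic_X_pow_sub_C _ hd.ne'
  have hg0 : aeval y g = 0 := by
    rw [hg]
    simp only [map_sub, map_pow, aeval_X, aeval_C]
    exact sub_self _
  have hgd : g.natDegree = d := natDegree_X_pow_sub_C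
  have h := Polynomial.natDegree_le_of_dvd (minpoly.dvd F y hg0) hgm.ne_zero
  rwa [hgd] at h

/-- `d ≤ [F(y) : F]` if `1, y, …, y ^ (d - 1)` are linearly independent over `F`. -/
theorem igram_le_relfinrank (F : IntermediateField k E) (y : E) (d : ℕ)
    (hint : IsIntegral F y)
    (hind : ∀ a : Fin d → F, (∃ i, a i ≠ 0) → ∑ i, (a i : E) * y ^ (i : ℕ) ≠ 0) :
    d ≤ IntermediateField.relfinrank F (IntermediateField.adjoin k ((F : Set E) ∪ {y})) := by
  rw [igram_relfinrank_eq F y hint]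
  by_contra hlt
  rw [not_le] at hlt
  set p := minpoly F y with hp
  have hpm : p.Monic := minpoly.monic hint
  have hp0 : aeval y p = 0 := minpoly.aeval F y
  apply hind (fun i => p.coeff i) ⟨⟨p.natDegree, hlt⟩, by
    show p.coeff p.natDegree ≠ 0
    rw [Polynomial.coeff_natDegree, hpm.leadingCoeff]
    exact one_ne_zero⟩
  rw [← hp0, Polynomial.aeval_eq_sum_range' hlt, Fin.sum_univ_eq_sum_range
    (fun i => ((p.coeff i : F) : E) * y ^ i) d]
  refine Finset.sum_congr rfl fun i _ => ?_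
  rw [Algebra.smul_def]
  rfl

end Gen

section Hom

variable {K F L : Type*} [Field K] [Field F] [Field L] [Algebra K F] [Algebra K L]

/-- a homomorphism `φ : F → L` with `L = ∑ φ(F) y ^ i`, `y ^ d ∈ φ(F)`, is integral. -/
theorem igram_isIntegral (φ : F →ₐ[K] L) (y : L) (d : ℕ) (t : F) (hd : 0 < d)
    (ht : φ t = y ^ d)
    (hgen : ∀ z : L, ∃ a : Fin d → F, z = ∑ i, φ (a i) * y ^ (i : ℕ)) :
    φ.toRingHom.IsIntegral := by
  have hy : φ.toRingHom.IsIntegralElem y := by
    refine ⟨X ^ d - C t, monic_X_pow_sub_C _ hd.ne', ?_⟩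
    rw [eval₂_sub, eval₂_pow, eval₂_X, eval₂_C]
    show y ^ d - φ t = 0
    rw [ht, sub_self]
  intro z
  obtain ⟨a, rfl⟩ := hgen z
  letI : Algebra F L := φ.toRingHom.toAlgebra
  show IsIntegral F (∑ i, φ (a i) * y ^ (i : ℕ))
  refine IsIntegral.sum _ fun i _ => ?_
  refine IsIntegral.mul ?_ (IsIntegral.pow ?_ _)
  · exact isIntegral_algebraMap (R := F) (A := L) (x := a i)
  · exact hy

end Hom

end Fermat.Agent.S36G
end
end MergeWrap_S36_Igusa_RamGen

section MergeWrap_S36_Igusa_Ram -- from S36/Igusa/Ram.lean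

set_option autoImplicit false
set_option linter.unusedSectionVars false
set_option linter.style.haveILetI false

noncomputable section

open AlgebraicCurve ModularCurve Fermat.Agent.BadRed Fermat.Agent.RR Fermat.Agent.S28

namespace Fermat.Agent.S36G

attribute [local instance 10000] SubalgebraClass.toAlgebra HahnSeries.powerSeriesAlgebra

theorem igram_midDeg_pos {q : ℕ} (hq : q.Prime) : 0 < midDeg q := by
  unfold midDeg midCard
  have h2 := hq.two_le
  split_ifs with h
  · subst h; decide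
  · have h3 : 3 ≤ q := by omega
    have : 2 ≤ q - 1 := by omega
    exact Nat.div_pos this (by norm_num)

theorem igram_midDeg_large {q : ℕ} (h5 : 5 ≤ q) : midDeg q = (q - 1) / 2 := by
  unfold midDeg midCard
  rw [if_neg (by omega)]

theorem igram_midDeg_small {q : ℕ} (hq : q.Prime) (h5 : ¬ 5 ≤ q) : midDeg q = 1 := by
  have h2 := hq.two_le
  have h23 : q = 2 ∨ q = 3 := by
    have h4 : q ≠ 4 := by
      rintro rfl
      exact absurd hq (by decide)
    omega
  rcases h23 with rfl | rfl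
  · decide
  · decide

section Series

variable (k : Type) [Field k] (q : ℕ) [hq : Fact q.Prime] [CharP k q]

/-- `(θ j̄) ^ (6 (q - 1)) · Δ̄ ^ (1 - q) = (j̄⁴ (j̄ - 1728)³) ^ (q - 1)`. -/
theorem igram_series_identity (h5 : 5 ≤ q) :
    (Fermat.Agent.IgusaDeg.theta k (jqModC k) ^ ((q - 1) / 2)) ^ 12 * ssFun k q =
      (jqModC k ^ 4 * (jqModC k - HahnSeries.C (1728 : k)) ^ 3) ^ (q - 1) := by
  have h1728 : (1728 : k) ≠ 0 := Fermat.Agent.SwD.ne_zero_1728 q h5
  have hq1 : 1 ≤ q := hq.out.one_le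
  have hodd : Odd q := hq.out.odd_of_ne_two (by omega)
  have hqd : (q - 1) / 2 * 12 = 6 * (q - 1) := by
    obtain ⟨m, hm⟩ := hodd
    omega
  have h6 : (Fermat.Agent.IgusaDeg.theta k (jqModC k) ^ ((q - 1) / 2)) ^ 12 =
      (Fermat.Agent.IgusaDeg.theta k (jqModC k) ^ 6) ^ (q - 1) := by
    rw [← pow_mul, ← pow_mul, hqd]
  have hΔ := igram_ssFun_mul_delta k h1728 q hq1
  rw [h6, Fermat.Agent.IgusaDeg.theta_identity]
  calc (wp10_DeltaF k * jqModC k ^ 4 * (jqModC k - HahnSeries.C 1728) ^ 3) ^ (q - 1) * ssFun k q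
      = (ssFun k q * wp10_DeltaF k ^ (q - 1)) *
          (jqModC k ^ 4 * (jqModC k - HahnSeries.C 1728) ^ 3) ^ (q - 1) := by
        rw [mul_assoc (wp10_DeltaF k), mul_pow]
        ring
    _ = _ := by rw [hΔ, one_mul]

end Series

section Place

variable (k : Type) [Field k] [IsAlgClosed k] (M₀ : ℕ) [NeZero M₀] (q : ℕ) [hq : Fact q.Prime]
  [CharP k q]

set_option maxHeartbeats 1600000 in
/-- **the order of `t = (θ j̄) ^ d` at a supersingular place with `ord_P ssFun = 12` is prime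
to `d = (q - 1) / 2`.** -/
theorem igram_coprime (h5 : 5 ≤ q) (P : Place k ↥(modularFunctionFieldFullC k M₀))
    (t u : ↥(modularFunctionFieldFullC k M₀))
    (ht : (t : LaurentSeries k) = Fermat.Agent.IgusaDeg.theta k (jqModC k) ^ ((q - 1) / 2))
    (hu : (u : LaurentSeries k) = ssFun k q) (hno : P.ord u = 12) :
    IsCoprime (((q - 1) / 2 : ℕ) : ℤ) (P.ord t) := by
  classical
  have h1728 : (1728 : k) ≠ 0 := Fermat.Agent.SwD.ne_zero_1728 q h5
  have hodd : Odd q := hq.out.odd_of_ne_two (by omega)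
  have hI0 := igram_series_identity k q h5
  obtain ⟨d, hd⟩ : ∃ d, (q - 1) / 2 = d := ⟨_, rfl⟩
  have hqd : q - 1 = 2 * d := by
    obtain ⟨m, hm⟩ := hodd
    omega
  rw [hd] at ht hI0 ⊢
  set J : ↥(modularFunctionFieldFullC k M₀) := Fermat.Agent.RRMod.jC k M₀ with hJ
  have hJc : (J : LaurentSeries k) = jqModC k := rfl
  have hJtr : Transcendental k J :=
    Fermat.Agent.GoodRed.transcendental_of_coe _ _
      (by rw [hJc]; exact Fermat.Agent.GoodRed.transcendental_jqModC k)
  have hRR := Fermat.Agent.RRMod.isRRField_fullC' k M₀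
  obtain ⟨S, u₀, hu₀, hS0, hss, hm0, hm1⟩ := igram_ssPoly k q h5
  have hu' : u = algebraMap k ↥(modularFunctionFieldFullC k M₀) u₀ * Polynomial.aeval J S := by
    apply Subtype.ext
    rw [hu, hss, MulMemClass.coe_mul, ← IntermediateField.aeval_coe, hJc,
      ← algebraMap_mul_laurent]
    rfl
  have hc0 : algebraMap k ↥(modularFunctionFieldFullC k M₀) u₀ ≠ 0 := by
    rwa [ne_eq, map_eq_zero_iff _ (algebraMap k ↥(modularFunctionFieldFullC k M₀)).injective]
  have hu0 : u ≠ 0 := by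
    intro h0
    rw [h0, P.ord_zero] at hno
    omega
  have haS : Polynomial.aeval J S ≠ 0 := by
    intro h0
    rw [hu', h0, mul_zero] at hu0
    exact hu0 rfl
  have hordS : P.ord (Polynomial.aeval J S) = 12 := by
    rw [hu', P.ord_mul hc0 haS, Fermat.Agent.GoodRedSmall.ord_const, zero_add] at hno
    exact hno
  have hj : 0 ≤ P.ord J := by
    by_contra hv
    rw [not_le] at hv
    have h1 := Fermat.Agent.RRHur.ord_aeval_of_pole hJtr P hv hS0
    rw [hordS] at h1
    have h2 : (S.natDegree : ℤ) * P.ord J ≤ 0 :=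
      mul_nonpos_of_nonneg_of_nonpos (Int.natCast_nonneg _) hv.le
    omega
  obtain ⟨c, hc⟩ := exists_const_sub hRR P hj
  have hc' : 0 < P.ord (J - algebraMap k ↥(modularFunctionFieldFullC k M₀) c) := by
    rcases hc with hc | hc
    · exfalso
      apply hJtr
      rw [hc]
      exact isAlgebraic_algebraMap c
    · exact hc
  have h1 := Fermat.Agent.GoodRedSmall.ord_aeval_eq P hc' hS0
  rw [hordS] at h1
  have hroot : S.IsRoot c := by
    rw [← Polynomial.rootMultiplicity_pos hS0]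
    by_contra h0
    have h00 : S.rootMultiplicity c = 0 := by omega
    rw [h00] at h1
    simp at h1
  -- the identity in `k(Z)`
  have e1 : ((algebraMap k ↥(modularFunctionFieldFullC k M₀) (1728 : k) :
      ↥(modularFunctionFieldFullC k M₀)) : LaurentSeries k) = HahnSeries.C (1728 : k) := by
    have h := algebraMap_mul_laurent k (1728 : k) 1
    rw [mul_one, mul_one] at h
    exact h
  have hI : t ^ 12 * u =
      (J ^ 4 * (J - algebraMap k ↥(modularFunctionFieldFullC k M₀) 1728) ^ 3) ^ (q - 1) := by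
    apply Subtype.ext
    rw [MulMemClass.coe_mul, SubmonoidClass.coe_pow, SubmonoidClass.coe_pow,
      MulMemClass.coe_mul, SubmonoidClass.coe_pow, SubmonoidClass.coe_pow,
      AddSubgroupClass.coe_sub, e1, hJc, ht, hu]
    exact hI0
  have ht0 : t ≠ 0 := by
    intro h0
    have h := congrArg (fun x : ↥(modularFunctionFieldFullC k M₀) => (x : LaurentSeries k)) h0
    simp only [ht, ZeroMemClass.coe_zero] at h
    exact pow_ne_zero _ Fermat.Agent.IgusaDeg.theta_jqModC_ne_zero h
  have hJ0 : J ≠ 0 := fun h0 => hJtr (h0 ▸ isAlgebraic_zero)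
  have hJ1 : J - algebraMap k ↥(modularFunctionFieldFullC k M₀) 1728 ≠ 0 := by
    intro h0
    apply hJtr
    rw [sub_eq_zero.mp h0]
    exact isAlgebraic_algebraMap _
  have hord : 12 * P.ord t + 12 = ((q - 1 : ℕ) : ℤ) *
      (4 * P.ord J + 3 * P.ord (J - algebraMap k ↥(modularFunctionFieldFullC k M₀) 1728)) := by
    have h := congrArg P.ord hI
    rw [P.ord_mul (pow_ne_zero _ ht0) hu0, igram_ord_pow, hno, igram_ord_pow,
      P.ord_mul (pow_ne_zero _ hJ0) (pow_ne_zero _ hJ1), igram_ord_pow, igram_ord_pow] at h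
    push_cast at h ⊢
    linarith
  have hqd' : ((q - 1 : ℕ) : ℤ) = 2 * d := by exact_mod_cast hqd
  rw [hqd'] at hord
  by_cases hcz : c = 0
  · subst hcz
    rw [map_zero, sub_zero] at hc' h1
    rw [hm0 hroot] at h1
    have ha : P.ord J = 3 := by
      push_cast at h1
      omega
    have hb : P.ord (J - algebraMap k ↥(modularFunctionFieldFullC k M₀) 1728) = 0 := by
      apply Fermat.Agent.GoodRedSmall.ord_eq_zero_of_sub_pos P (c := -1728)
        (neg_ne_zero.mpr h1728)
      rw [map_neg, sub_neg_eq_add, sub_add_cancel]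
      exact hc'
    rw [ha, hb] at hord
    have hn : P.ord t = 2 * d - 1 := by linarith
    rw [hn]
    exact ⟨2, -1, by ring⟩
  · by_cases hc1 : c = 1728
    · subst hc1
      rw [hm1 hroot] at h1
      have hb : P.ord (J - algebraMap k ↥(modularFunctionFieldFullC k M₀) 1728) = 2 := by
        push_cast at h1
        omega
      have ha : P.ord J = 0 := Fermat.Agent.GoodRedSmall.ord_eq_zero_of_sub_pos P h1728 hc'
      rw [ha, hb] at hord
      have hn : P.ord t = d - 1 := by linarith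
      rw [hn]
      exact ⟨1, -1, by ring⟩
    · have ha : P.ord J = 0 := Fermat.Agent.GoodRedSmall.ord_eq_zero_of_sub_pos P hcz hc'
      have hb : P.ord (J - algebraMap k ↥(modularFunctionFieldFullC k M₀) 1728) = 0 := by
        apply Fermat.Agent.GoodRedSmall.ord_eq_zero_of_sub_pos P (c := c - 1728)
          (sub_ne_zero.mpr hc1)
        have e : J - algebraMap k ↥(modularFunctionFieldFullC k M₀) 1728 -
            algebraMap k ↥(modularFunctionFieldFullC k M₀) (c - 1728) =
            J - algebraMap k ↥(modularFunctionFieldFullC k M₀) c := by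
          rw [map_sub]
          ring
        rw [e]
        exact hc'
      rw [ha, hb] at hord
      have hn : P.ord t = -1 := by linarith
      rw [hn]
      exact ⟨0, -1, by ring⟩

end Place

section Final

variable (M₀ q : ℕ)

/-- the data of the radical extension `k(Z)(θ j̄) / k(Z)`. -/
theorem igram_setup (hq : q.Prime) (k : Type) [Field k] [CharP k q] :
    ∃ (y : ↥(igField k M₀)) (t : ↥(modularFunctionFieldFullC k M₀)),
      (y : LaurentSeries k) = Fermat.Agent.IgusaDeg.theta k (jqModC k) ∧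
      (t : LaurentSeries k) = Fermat.Agent.IgusaDeg.theta k (jqModC k) ^ midDeg q ∧
      y ≠ 0 ∧
      IntermediateField.inclusion (fullC_le_igField k M₀) t = y ^ midDeg q ∧
      (∀ z : ↥(igField k M₀), ∃ a : Fin (midDeg q) → ↥(modularFunctionFieldFullC k M₀),
        z = ∑ i, IntermediateField.inclusion (fullC_le_igField k M₀) (a i) * y ^ (i : ℕ)) ∧
      (IntermediateField.inclusion (fullC_le_igField k M₀)).toRingHom.IsIntegral := by
  have hK := igKummer M₀ q hq k
  have hd := igram_midDeg_pos hq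
  set y : ↥(igField k M₀) := ⟨Fermat.Agent.IgusaDeg.theta k (jqModC k), theta_mem_igField k M₀⟩
    with hy
  set t : ↥(modularFunctionFieldFullC k M₀) :=
    ⟨Fermat.Agent.IgusaDeg.theta k (jqModC k) ^ midDeg q, hK⟩ with ht
  have hy0 : y ≠ 0 := by
    intro h0
    have h := congrArg (fun x : ↥(igField k M₀) => (x : LaurentSeries k)) h0
    exact Fermat.Agent.IgusaDeg.theta_jqModC_ne_zero h
  have hty : IntermediateField.inclusion (fullC_le_igField k M₀) t = y ^ midDeg q := by
    apply Subtype.ext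
    rw [SubmonoidClass.coe_pow]
    rfl
  have hgen : ∀ z : ↥(igField k M₀),
      ∃ a : Fin (midDeg q) → ↥(modularFunctionFieldFullC k M₀),
        z = ∑ i, IntermediateField.inclusion (fullC_le_igField k M₀) (a i) * y ^ (i : ℕ) := by
    intro z
    obtain ⟨a, ha⟩ := igram_gen (modularFunctionFieldFullC k M₀)
      (Fermat.Agent.IgusaDeg.theta k (jqModC k)) (midDeg q) hd hK z.2
    refine ⟨a, Subtype.ext ?_⟩
    rw [ha, AddSubmonoidClass.coe_finsetSum]
    refine Finset.sum_congr rfl fun i _ => ?_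
    rw [MulMemClass.coe_mul, SubmonoidClass.coe_pow]
    rfl
  exact ⟨y, t, rfl, rfl, hy0, hty, hgen, igram_isIntegral _ y (midDeg q) t hd hty hgen⟩

/-- the coprimality, for every prime `q`. -/
theorem igram_coprime_all (hq : q.Prime) (hqM : ¬ q ∣ M₀) (k : Type) [Field k] [IsAlgClosed k]
    [CharP k q] (P : Place k ↥(modularFunctionFieldFullC k M₀)) (hSS : IsSSPlace k M₀ q P)
    (hno : ∀ u : ↥(modularFunctionFieldFullC k M₀), (u : LaurentSeries k) = ssFun k q →
      P.ord u = 12)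
    (t : ↥(modularFunctionFieldFullC k M₀))
    (ht : (t : LaurentSeries k) = Fermat.Agent.IgusaDeg.theta k (jqModC k) ^ midDeg q) :
    IsCoprime ((midDeg q : ℕ) : ℤ) (P.ord t) := by
  haveI : Fact q.Prime := ⟨hq⟩
  haveI : NeZero M₀ := ⟨fun h => hqM (h ▸ dvd_zero q)⟩
  by_cases h5 : 5 ≤ q
  · obtain ⟨u, hu, -⟩ := hSS
    rw [igram_midDeg_large h5] at ht ⊢
    exact igram_coprime k M₀ q h5 P t u ht hu (hno u hu)
  · rw [igram_midDeg_small hq h5]
    exact isCoprime_one_left

/-- **(IG3) total ramification at the supersingular places.** -/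
theorem igTotRam : IgTotRam M₀ q := by
  intro hq hqM k _ _ _ P hSS hno Q Q' hQ hQ'
  obtain ⟨y, t, -, ht, hy0, hty, hgen, hφ⟩ := igram_setup M₀ q hq k
  have hcop := igram_coprime_all M₀ q hq hqM k P hSS hno t ht
  exact igram_place_unique (IntermediateField.inclusion (fullC_le_igField k M₀)) y (midDeg q) t
    hφ (igram_midDeg_pos hq) hy0 hty hgen P hcop Q Q' hQ hQ'

/-- `[k(Z)(θ j̄) : k(Z)] ≤ midDeg q`. -/
theorem igRam_relfinrank_le (hq : q.Prime) (k : Type) [Field k] [CharP k q] :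
    IntermediateField.relfinrank (modularFunctionFieldFullC k M₀) (igField k M₀) ≤ midDeg q :=
  igram_relfinrank_le (modularFunctionFieldFullC k M₀) _ (midDeg q) (igram_midDeg_pos hq)
    (igKummer M₀ q hq k)

/-- `midDeg q ≤ [k(Z)(θ j̄) : k(Z)]`, if `k(Z)(θ j̄)` has a place over a supersingular place `P`
of `k(Z)` with `ord_P ssFun = 12`. -/
theorem igRam_le_relfinrank (hq : q.Prime) (hqM : ¬ q ∣ M₀) (k : Type) [Field k] [IsAlgClosed k]
    [CharP k q] (P : Place k ↥(modularFunctionFieldFullC k M₀)) (hSS : IsSSPlace k M₀ q P)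
    (hno : ∀ u : ↥(modularFunctionFieldFullC k M₀), (u : LaurentSeries k) = ssFun k q →
      P.ord u = 12)
    (Q : Place k ↥(igField k M₀))
    (hQ : ∀ x : ↥(modularFunctionFieldFullC k M₀), 0 < P.ord x →
      0 < Q.ord (IntermediateField.inclusion (fullC_le_igField k M₀) x)) :
    midDeg q ≤ IntermediateField.relfinrank (modularFunctionFieldFullC k M₀) (igField k M₀) := by
  obtain ⟨y, t, hy, ht, hy0, hty, hgen, hφ⟩ := igram_setup M₀ q hq k
  have hcop := igram_coprime_all M₀ q hq hqM k P hSS hno t ht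
  have hd := igram_midDeg_pos hq
  have hK := igKummer M₀ q hq k
  refine igram_le_relfinrank (modularFunctionFieldFullC k M₀) _ (midDeg q)
    (igram_isIntegral_of_pow_mem _ _ _ hd hK) fun a ha h0 => ?_
  have ha' : a ≠ 0 := by
    obtain ⟨i, hi⟩ := ha
    intro h
    exact hi (by rw [h]; rfl)
  apply igram_sum_ne_zero (IntermediateField.inclusion (fullC_le_igField k M₀)) y (midDeg q) t
    hφ hd hy0 hty P hcop Q hQ a ha'
  apply Subtype.ext
  rw [AddSubmonoidClass.coe_finsetSum, ZeroMemClass.coe_zero, ← h0]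
  refine Finset.sum_congr rfl fun i _ => ?_
  rw [MulMemClass.coe_mul, SubmonoidClass.coe_pow, hy]
  rfl

/-- **(IG2) the degree**, given a place of `k(Z)(θ j̄)` over a supersingular place `P` of `k(Z)`
with `ord_P ssFun = 12`. -/
theorem igRam_relfinrank_eq (hq : q.Prime) (hqM : ¬ q ∣ M₀) (k : Type) [Field k] [IsAlgClosed k]
    [CharP k q] (P : Place k ↥(modularFunctionFieldFullC k M₀)) (hSS : IsSSPlace k M₀ q P)
    (hno : ∀ u : ↥(modularFunctionFieldFullC k M₀), (u : LaurentSeries k) = ssFun k q →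
      P.ord u = 12)
    (Q : Place k ↥(igField k M₀))
    (hQ : ∀ x : ↥(modularFunctionFieldFullC k M₀), 0 < P.ord x →
      0 < Q.ord (IntermediateField.inclusion (fullC_le_igField k M₀) x)) :
    IntermediateField.relfinrank (modularFunctionFieldFullC k M₀) (igField k M₀) = midDeg q :=
  le_antisymm (igRam_relfinrank_le M₀ q hq k) (igRam_le_relfinrank M₀ q hq hqM k P hSS hno Q hQ)

/-- **(IG2) the degree for `q = 2, 3`** (`θ j̄ = -j̄`). -/
theorem igDegree_small (h5 : ¬ 5 ≤ q) : IgDegree M₀ q := by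
  intro hq hqM k _ _ _
  have h1 := igRam_relfinrank_le M₀ q hq k
  rw [igram_midDeg_small hq h5] at h1 ⊢
  have hK := igKummer M₀ q hq k
  rw [igram_midDeg_small hq h5, pow_one] at hK
  rw [IntermediateField.relfinrank_eq_one_iff]
  unfold igField
  rw [IntermediateField.adjoin_le_iff]
  rintro x (hx | hx)
  · exact hx
  · rw [Set.mem_singleton_iff] at hx
    rw [hx]
    exact hK

end Final

end Fermat.Agent.S36G
end
end MergeWrap_S36_Igusa_Ram
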