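import Fermat.Agent.MUL.S36.Igusa.AsmSetup
import Fermat.Agent.MUL.Lib.BadRed.Mod.GaussSetupFinal
import Fermat.Agent.MUL.S36.Seed.Cusp

section MergeWrap_S36_Igusa_Lies -- from S36/Igusa/Lies.lean

set_option autoImplicit false
set_option linter.style.haveILetI false
set_option linter.unusedSectionVars false

noncomputable section

namespace Fermat.Agent.S36G

open ModularCurve AlgebraicCurve Fermat.Agent.GaussInt Fermat.Agent.BadRed

local notation "Qb" => AlgebraicClosure ℚ

section L1

variable (M : ℕ) [NeZero M] {q : ℕ} (hq : q.Prime) (A : ValuationSubring Qb)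
  (hA : A.LiesOverPrime q)

/-- **(L1)** `gaussSub A ⊤ ∩ F_M = gaussOv M`. -/
theorem ig_mem_gaussSub_top_iff (y : ↥(modularFunctionFieldBar M)) :
    (y : LaurentSeries Qb) ∈ gaussSub A (⊤ : IntermediateField Qb (LaurentSeries Qb)) ↔
      y ∈ gaussOv M hq A hA := by
  constructor
  · intro h
    by_contra hy
    have hy0 : y ≠ 0 := fun h0 => hy (h0 ▸ (gaussOv M hq A hA).zero_mem)
    have hinv : y⁻¹ ∈ gaussOv M hq A hA :=
      ((gaussOv M hq A hA).mem_or_inv_mem y).resolve_left hy
    have hres : gaussResFun A (modularFunctionFieldBar M)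
        ((y⁻¹ : ↥(modularFunctionFieldBar M)) : LaurentSeries Qb) = 0 := by
      by_contra hne
      apply hy
      have := inv_mem_gaussSub (F := modularFunctionFieldBar M) hinv hne
      show (y : LaurentSeries Qb) ∈ gaussSub A (modularFunctionFieldBar M)
      have e : (((y⁻¹ : ↥(modularFunctionFieldBar M)) : LaurentSeries Qb))⁻¹ =
          (y : LaurentSeries Qb) := by
        rw [← IntermediateField.coe_inv, inv_inv]
      rwa [e] at this
    have h2 : ((y⁻¹ : ↥(modularFunctionFieldBar M)) : LaurentSeries Qb) ∈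
        gaussSub A (⊤ : IntermediateField Qb (LaurentSeries Qb)) :=
      gaussSub_mono le_top hinv
    have hmul : gaussRes A (⊤ : IntermediateField Qb (LaurentSeries Qb))
        (⟨_, h⟩ * ⟨_, h2⟩) = 1 := by
      have : (⟨_, h⟩ * ⟨_, h2⟩ :
          gaussSub A (⊤ : IntermediateField Qb (LaurentSeries Qb))) = 1 := by
        apply Subtype.ext
        show (y : LaurentSeries Qb) * ((y⁻¹ : ↥(modularFunctionFieldBar M)) : LaurentSeries Qb)
          = 1
        rw [← MulMemClass.coe_mul, mul_inv_cancel₀ hy0]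
        rfl
      rw [this, map_one]
    rw [map_mul] at hmul
    have h3 : gaussRes A (⊤ : IntermediateField Qb (LaurentSeries Qb)) ⟨_, h2⟩ = 0 := by
      rw [gaussRes_apply]
      show gaussResFun A (⊤ : IntermediateField Qb (LaurentSeries Qb))
        ((y⁻¹ : ↥(modularFunctionFieldBar M)) : LaurentSeries Qb) = 0
      rw [gaussResFun_mono le_top hinv, hres]
    rw [h3, mul_zero] at hmul
    exact zero_ne_one hmul
  · intro h
    exact gaussSub_mono le_top h

/-- **(L1')** the residue in `gaussSub A ⊤` of an element of `gaussOv M` is its Gauss residue. -/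
theorem ig_gaussResFun_top {y : ↥(modularFunctionFieldBar M)} (hy : y ∈ gaussOv M hq A hA) :
    gaussResFun A (⊤ : IntermediateField Qb (LaurentSeries Qb)) (y : LaurentSeries Qb) =
      gaussResFun A (modularFunctionFieldBar M) (y : LaurentSeries Qb) :=
  gaussResFun_mono le_top hy

/-- **(L3)** `v_∞` is the expansion valuation of the inclusion `F_M ⊆ ℚ̄((q))`. -/
theorem ig_expOv_val (f : ↥(modularFunctionFieldBar M)) :
    f ∈ expOv (modularFunctionFieldBar M).val A ↔ f ∈ gaussOv M hq A hA := by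
  rw [mem_expOv_iff]
  exact ig_mem_gaussSub_top_iff M hq A hA f

/-- **(L3)** the residue function of the inclusion is the Gauss residue. -/
theorem ig_expRes_val {f : ↥(modularFunctionFieldBar M)} (hf : f ∈ gaussOv M hq A hA) :
    expRes (modularFunctionFieldBar M).val A f =
      gaussResFun A (modularFunctionFieldBar M) (f : LaurentSeries Qb) :=
  ig_gaussResFun_top M hq A hA hf

end L1

section L2

variable (M₀ q : ℕ) [NeZero M₀] [NeZero q] (hq : q.Prime) (A : ValuationSubring Qb)
  (hA : A.LiesOverPrime q)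

/-- `α x ∈ expOv ε A ↔ x ∈ gaussOv (M₀ q)` for a middle expansion `ε`. -/
theorem ig_alpha_mem_expOv_iff {z : Qbˣ}
    {ε : ↥(modularFunctionFieldBar (M₀ * q * q)) →ₐ[Qb] LaurentSeries Qb}
    (hε : IsMidExp M₀ q z ε) (x : ↥(modularFunctionFieldBar (M₀ * q))) :
    heckeAlphaBar Qb (M₀ * q) q x ∈ expOv ε A ↔ x ∈ gaussOv (M₀ * q) hq A hA := by
  rw [mem_expOv_iff, hε.alpha]
  exact ig_mem_gaussSub_top_iff (M₀ * q) hq A hA x

/-- the residue of `α x` at a middle expansion is the Gauss residue of `x`. -/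
theorem ig_expRes_alpha {z : Qbˣ}
    {ε : ↥(modularFunctionFieldBar (M₀ * q * q)) →ₐ[Qb] LaurentSeries Qb}
    (hε : IsMidExp M₀ q z ε) {x : ↥(modularFunctionFieldBar (M₀ * q))}
    (hx : x ∈ gaussOv (M₀ * q) hq A hA) :
    expRes ε A (heckeAlphaBar Qb (M₀ * q) q x) =
      gaussResFun A (modularFunctionFieldBar (M₀ * q)) (x : LaurentSeries Qb) := by
  unfold expRes
  rw [hε.alpha]
  exact ig_gaussResFun_top (M₀ * q) hq A hA hx

/-- **(L2)** the middle valuation lies over `v_∞` of `F_{M₀ q}` (along `heckeAlphaBar`). -/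
theorem ig_liesOver_mid {z : Qbˣ}
    {ε : ↥(modularFunctionFieldBar (M₀ * q * q)) →ₐ[Qb] LaurentSeries Qb}
    (hε : IsMidExp M₀ q z ε)
    (hV : ∀ f : ↥(modularFunctionFieldBar (M₀ * q * q)), f ∈ expOv ε A ∨ f⁻¹ ∈ expOv ε A) :
    @LiesOverV _ _ _ _ (algebraAlong (heckeAlphaBar Qb (M₀ * q) q))
      (gaussOv (M₀ * q) hq A hA) (expVal hV) := by
  letI := algebraAlong (heckeAlphaBar Qb (M₀ * q) q)
  unfold LiesOverV
  apply SetLike.ext
  intro x
  rw [ValuationSubring.mem_comap]
  exact ig_alpha_mem_expOv_iff M₀ q hq A hA hε x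

end L2

end Fermat.Agent.S36G
end
end MergeWrap_S36_Igusa_Lies
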