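import Mathlib
import Fermat.Agent.MUL.S36.Igusa.Ram
import Fermat.Agent.MUL.S36.Igusa.AsmDefs
import Fermat.Agent.MUL.Lib.RedTr.FundIdK
import Fermat.Agent.MUL.Lib.RR.Hurwitz.Rel
import Fermat.Agent.MUL.S36.Seed.UDeg

section MergeWrap_S36_Igusa_DegOf -- from S36/Igusa/DegOf.lean
attribute [local instance 10000] SubalgebraClass.toAlgebra HahnSeries.powerSeriesAlgebra

set_option autoImplicit false
set_option linter.unusedSectionVars false
set_option linter.style.haveILetI false

noncomputable section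

open AlgebraicCurve ModularCurve Fermat.Agent.BadRed Fermat.Agent.RR Fermat.Agent.RedTr

namespace Fermat.Agent.S36G

section Abstract

variable {K F L : Type*} [Field K] [Field F] [Field L] [Algebra K F] [Algebra K L]

/-- `L = ∑_{i < d} φ(F) y ^ i` is finite over `F`. -/
theorem igram_finiteAlong (φ : F →ₐ[K] L) (y : L) (d : ℕ)
    (hgen : ∀ z : L, ∃ a : Fin d → F, z = ∑ i, φ (a i) * y ^ (i : ℕ)) : FiniteAlong K φ := by
  letI := algebraAlong φ
  show Module.Finite F L
  refine Module.Finite.of_surjective (Fintype.linearCombination F (fun i : Fin d => y ^ (i : ℕ)))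
    fun z => ?_
  obtain ⟨a, ha⟩ := hgen z
  refine ⟨a, ?_⟩
  rw [ha, Fintype.linearCombination_apply]
  refine Finset.sum_congr rfl fun i _ => ?_
  rw [Algebra.smul_def]
  rfl

end Abstract

section Modular

variable (M₀ q : ℕ)

/-- every place of `k(Z)` has a place of `k(Z)(θ j̄)` over it. -/
theorem igram_exists_place_over (hq : q.Prime) (hqM : ¬ q ∣ M₀) (k : Type) [Field k]
    [IsAlgClosed k] [CharP k q] (hRR : IsRRField k ↥(igField k M₀))
    (P : Place k ↥(modularFunctionFieldFullC k M₀)) :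
    ∃ Q : Place k ↥(igField k M₀),
      ∀ x : ↥(modularFunctionFieldFullC k M₀), 0 < P.ord x →
        0 < Q.ord (IntermediateField.inclusion (fullC_le_igField k M₀) x) := by
  haveI : NeZero M₀ := ⟨fun h => hqM (h ▸ dvd_zero q)⟩
  obtain ⟨y, t, -, -, -, -, hgen, hφ⟩ := igram_setup M₀ q hq k
  have hE := Fermat.Agent.RRMod.isRRField_fullC' k M₀
  haveI := hasPD hRR
  have hFI := fundIdK hE hRR (IntermediateField.inclusion (fullC_le_igField k M₀)) hφ
  have hfin := igram_finiteAlong (IntermediateField.inclusion (fullC_le_igField k M₀)) y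
    (midDeg q) hgen
  obtain ⟨Q, hQ⟩ := exists_restrictAlong_eq hE hRR
    (IntermediateField.inclusion (fullC_le_igField k M₀)) hφ hFI hfin P
  refine ⟨Q, fun x hx => ?_⟩
  rw [Fermat.Agent.RRRel.ord_map_pos_iff _ hφ, hQ]
  exact hx

/-- **(IG2) the degree at `k`**, from (RR) and ONE supersingular place with `ord_P ssFun = 12`. -/
theorem igDegree_core (hq : q.Prime) (hqM : ¬ q ∣ M₀) (k : Type) [Field k] [IsAlgClosed k]
    [CharP k q] (hRR : IsRRField k ↥(igField k M₀))
    (P : Place k ↥(modularFunctionFieldFullC k M₀)) (hSS : IsSSPlace k M₀ q P)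
    (hno : ∀ u : ↥(modularFunctionFieldFullC k M₀), (u : LaurentSeries k) = ssFun k q →
      P.ord u = 12) :
    IntermediateField.relfinrank (modularFunctionFieldFullC k M₀) (igField k M₀) = midDeg q := by
  obtain ⟨Q, hQ⟩ := igram_exists_place_over M₀ q hq hqM k hRR P
  exact igRam_relfinrank_eq M₀ q hq hqM k P hSS hno Q hQ

/-- **(IG2) the degree at `k`**, from (RR) and, for `5 ≤ q`, the existence of a supersingular
place and `ord_P ssFun = 12` at the supersingular places. -/
theorem igDegree_at (hq : q.Prime) (hqM : ¬ q ∣ M₀) (k : Type) [Field k] [IsAlgClosed k]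
    [CharP k q] (hRR : IsRRField k ↥(igField k M₀))
    (hne : 5 ≤ q → ∃ P : Place k ↥(modularFunctionFieldFullC k M₀), IsSSPlace k M₀ q P)
    (hno : 5 ≤ q → ∀ P : Place k ↥(modularFunctionFieldFullC k M₀), IsSSPlace k M₀ q P →
      ∀ u : ↥(modularFunctionFieldFullC k M₀), (u : LaurentSeries k) = ssFun k q →
        P.ord u = 12) :
    IntermediateField.relfinrank (modularFunctionFieldFullC k M₀) (igField k M₀) = midDeg q := by
  by_cases h5 : 5 ≤ q
  · obtain ⟨P, hP⟩ := hne h5
    exact igDegree_core M₀ q hq hqM k hRR P hP (hno h5 P hP)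
  · exact igDegree_small M₀ q h5 hq hqM k

/-- **`IgDegree M₀ q`** from `IgRR M₀ q`, the existence of supersingular places and `hno`
(for every `k`). -/
theorem igDegree_of (hRR : IgRR M₀ q)
    (hne : 5 ≤ q → ∀ (k : Type) [Field k] [IsAlgClosed k] [CharP k q],
      ∃ P : Place k ↥(modularFunctionFieldFullC k M₀), IsSSPlace k M₀ q P)
    (hno : 5 ≤ q → ∀ (k : Type) [Field k] [IsAlgClosed k] [CharP k q],
      ∀ P : Place k ↥(modularFunctionFieldFullC k M₀), IsSSPlace k M₀ q P →
        ∀ u : ↥(modularFunctionFieldFullC k M₀), (u : LaurentSeries k) = ssFun k q →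
          P.ord u = 12) :
    IgDegree M₀ q := by
  intro hq hqM k _ _ _
  exact igDegree_at M₀ q hq hqM k (hRR hq hqM k) (fun h5 => hne h5 k) (fun h5 => hno h5 k)

end Modular

end Fermat.Agent.S36G
end
end MergeWrap_S36_Igusa_DegOf
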