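import Mathlib
import Fermat.Agent.MUL.S36.Igusa.Final
import Fermat.Agent.MUL.S36.Genus.Hno23
import Fermat.Agent.MUL.S36.Genus.IgGenus
import Fermat.Agent.MUL.S36.Val.VertIndep
import Fermat.Agent.MUL.S36.G.NormLayerHor

section MergeWrap_S36_Igusa_Pack -- from S36/Igusa/Pack.lean

set_option autoImplicit false
set_option synthInstance.maxHeartbeats 400000
set_option linter.style.haveILetI false
set_option linter.unusedSectionVars false
set_option linter.unusedVariables false

noncomputable section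

attribute [local instance 10000] SubalgebraClass.toAlgebra HahnSeries.powerSeriesAlgebra

namespace Fermat.Agent.S36G

open ModularCurve AlgebraicCurve Fermat.Agent.GaussInt Fermat.Agent.Deuring
  Fermat.Agent.Kronecker Fermat.Agent.BadRed Fermat.Agent.RR Fermat.Agent.RRRel

local notation "Qb" => AlgebraicClosure ℚ

/-! ### the package of the middle constant reductions -/

/-- **the Igusa pair**: the middle constant reductions of `F_{M₀ q²}` at `A ∣ q`. -/
structure IgPack (M₀ q : ℕ) [NeZero M₀] [NeZero q] (A : ValuationSubring Qb) where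
  /-- the roots of unity (one in each class modulo squares) -/
  z : Fin (midCard q) → Qbˣ
  /-- the middle expansions -/
  ε : Fin (midCard q) → (↥(modularFunctionFieldBar (M₀ * q * q)) →ₐ[Qb] LaurentSeries Qb)
  /-- the constant reductions -/
  S : Fin (midCard q) → ValSetup Qb ↥(modularFunctionFieldBar (M₀ * q * q))
    (IsLocalRing.ResidueField A) ↥(igField (IsLocalRing.ResidueField A) M₀)
  prim : ∀ m, IsPrimitiveRoot (z m) q
  isMidExp : ∀ m, IsMidExp M₀ q (z m) (ε m)
  isMidSetup : ∀ m, IsMidSetup M₀ q A (ε m) (S m)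
  lat : ∀ m, HasLattice (S m)
  indep : ∀ m m', m ≠ m' → ¬ (S m).Ov ≤ (S m').Ov
  cover : ∀ (z' : Qbˣ)
    (ε' : ↥(modularFunctionFieldBar (M₀ * q * q)) →ₐ[Qb] LaurentSeries Qb),
    IsPrimitiveRoot z' q → IsMidExp M₀ q z' ε' → ∃ m, expOv ε' A = expOv (ε m) A

section Pack

variable (M₀ q : ℕ) [NeZero M₀] [NeZero q]

/-- two middle constant reductions with the same Gauss ring are not incomparable. -/
theorem igPack_expOv_eq_of_le {A : ValuationSubring Qb}
    {ε ε' : ↥(modularFunctionFieldBar (M₀ * q * q)) →ₐ[Qb] LaurentSeries Qb}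
    {S S' : ValSetup Qb ↥(modularFunctionFieldBar (M₀ * q * q))
      (IsLocalRing.ResidueField A) ↥(igField (IsLocalRing.ResidueField A) M₀)}
    (hS : IsMidSetup M₀ q A ε S) (hS' : IsMidSetup M₀ q A ε' S') (hle : S.Ov ≤ S'.Ov) :
    expOv ε A = expOv ε' A := by
  have hge := ov_le_of_ov_le S S' (hS.A_eq.trans hS'.A_eq.symm) hle
  ext f
  rw [← hS.mem_iff f, ← hS'.mem_iff f]
  exact ⟨fun h => hle h, fun h => hge h⟩

/-- **the Igusa pair exists** (auxiliary level). -/
theorem nonempty_igPack (hq : q.Prime) (hqM : ¬ q ∣ M₀) (hν2 : nuTwo M₀ = 0)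
    (hν3 : nuThree M₀ = 0) (A : ValuationSubring Qb) (hA : A.LiesOverPrime q) :
    Nonempty (IgPack M₀ q A) := by
  have hSet := igMidSetupExists_aux M₀ q hν2 hν3 hq hqM A hA
  have hDist := igMidDistinct_aux M₀ q hν2 hν3
  have hTwo := igMidAtMostTwo_aux M₀ q hν2 hν3 hq hqM A hA
  obtain ⟨z₀', hz₀'⟩ := HasEnoughRootsOfUnity.exists_primitiveRoot Qb q
  have hz₀ne : z₀' ≠ 0 := hz₀'.ne_zero (NeZero.ne q)
  set z₀ : Qbˣ := Units.mk0 z₀' hz₀ne with hz₀def
  have hz₀ : IsPrimitiveRoot z₀ q := by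
    rw [← IsPrimitiveRoot.coe_units_iff]
    exact hz₀'
  obtain ⟨ε₀, hε₀⟩ := igMidExpExists M₀ q hq hqM z₀ hz₀
  obtain ⟨S₀, hS₀, hL₀⟩ := hSet z₀ ε₀ hz₀ hε₀
  by_cases hq2 : q = 2
  · have hcard : midCard q = 1 := if_pos hq2
    refine ⟨⟨fun _ => z₀, fun _ => ε₀, fun _ => S₀, fun _ => hz₀, fun _ => hε₀, fun _ => hS₀,
      fun _ => hL₀, ?_, ?_⟩⟩
    · intro m m' hmm'
      exfalso
      apply hmm'
      apply Fin.ext
      have h1 := m.2
      have h2 := m'.2
      omega
    · intro z' ε' hz' hε'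
      refine ⟨⟨0, by rw [hcard]; exact Nat.one_pos⟩, ?_⟩
      have h1 : IsPrimitiveRoot (z' : Qb) 2 := by
        rw [← hq2]
        exact IsPrimitiveRoot.coe_units_iff.mpr hz'
      have h2 : IsPrimitiveRoot (z₀ : Qb) 2 := by
        rw [← hq2]
        exact IsPrimitiveRoot.coe_units_iff.mpr hz₀
      have h12 : z' = z₀ := by
        apply Units.ext
        rw [h1.eq_neg_one_of_two_right, h2.eq_neg_one_of_two_right]
      rw [h12] at hε'
      rw [igMidExpUnique M₀ q hq z₀ ε' ε₀ hε' hε₀]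
  · have hcard : midCard q = 2 := if_neg hq2
    obtain ⟨a, hqa, hns⟩ := ig_exists_nonsquare hq hq2
    have hza : IsPrimitiveRoot (z₀ ^ a) q :=
      hz₀.pow_of_coprime a ((Nat.Prime.coprime_iff_not_dvd hq).mpr hqa).symm
    obtain ⟨ε₁, hε₁⟩ := igMidExpExists M₀ q hq hqM (z₀ ^ a) hza
    obtain ⟨S₁, hS₁, hL₁⟩ := hSet (z₀ ^ a) ε₁ hza hε₁
    have hne : expOv ε₀ A ≠ expOv ε₁ A := fun h =>
      hns ((hDist hq hqM A hA z₀ a ε₀ ε₁ hz₀ hqa hε₀ hε₁).mp h)
    refine ⟨⟨fun m => if (m : ℕ) = 0 then z₀ else z₀ ^ a,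
      fun m => if (m : ℕ) = 0 then ε₀ else ε₁,
      fun m => if (m : ℕ) = 0 then S₀ else S₁, ?_, ?_, ?_, ?_, ?_, ?_⟩⟩
    · intro m
      split_ifs
      · exact hz₀
      · exact hza
    · intro m
      split_ifs
      · exact hε₀
      · exact hε₁
    · intro m
      split_ifs
      · exact hS₀
      · exact hS₁
    · intro m
      split_ifs
      · exact hL₀
      · exact hL₁
    · intro m m' hmm'
      have hval : (m : ℕ) ≠ (m' : ℕ) := fun h => hmm' (Fin.ext h)
      have h1 := m.2
      have h2 := m'.2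
      by_cases hm : (m : ℕ) = 0
      · have hm' : (m' : ℕ) ≠ 0 := fun h => hval (hm.trans h.symm)
        rw [if_pos hm, if_neg hm']
        intro hle
        exact hne (igPack_expOv_eq_of_le M₀ q hS₀ hS₁ hle)
      · have hm' : (m' : ℕ) = 0 := by omega
        rw [if_neg hm, if_pos hm']
        intro hle
        exact hne (igPack_expOv_eq_of_le M₀ q hS₁ hS₀ hle).symm
    · intro z' ε' hz' hε'
      rcases hTwo z₀ (z₀ ^ a) z' ε₀ ε₁ ε' hz₀ hza hz' hε₀ hε₁ hε' with h | h | h
      · exact absurd h hne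
      · refine ⟨⟨0, by rw [hcard]; norm_num⟩, ?_⟩
        show expOv ε' A = expOv ε₀ A
        exact h.symm
      · refine ⟨⟨1, by rw [hcard]; norm_num⟩, ?_⟩
        show expOv ε' A = expOv ε₁ A
        exact h.symm

end Pack

/-! ### the places of `k(Z)(θ j̄)` over the supersingular places -/

section Places

variable (M₀ : ℕ) [NeZero M₀] {q : ℕ} {A : ValuationSubring Qb}

/-- **(HNO)**, all `q`: `ord_P ssFun = 12` at every supersingular place. -/
theorem igHnoAll (hq : q.Prime) (hqM : ¬ q ∣ M₀) (hν2 : nuTwo M₀ = 0) (hν3 : nuThree M₀ = 0)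
    (h2 : q = 2 → 3 ∣ M₀) (h3 : q = 3 → 2 ∣ M₀) (hA : A.LiesOverPrime q)
    (P : Place (IsLocalRing.ResidueField A)
      ↥(modularFunctionFieldFullC (IsLocalRing.ResidueField A) M₀))
    (hP : IsSSPlace (IsLocalRing.ResidueField A) M₀ q P) :
    ∀ u : ↥(modularFunctionFieldFullC (IsLocalRing.ResidueField A) M₀),
      (u : LaurentSeries (IsLocalRing.ResidueField A)) = ssFun (IsLocalRing.ResidueField A) q →
        P.ord u = 12 := by
  by_cases h5 : 5 ≤ q
  · intro u hu
    exact gen_hno M₀ hq h5 hqM hν2 hν3 hA P hP u hu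
  · have h23 : q = 2 ∨ q = 3 := by
      have hq2 := hq.two_le
      have h4 : q ≠ 4 := by
        rintro rfl
        exact absurd hq (by norm_num)
      omega
    exact hno23 M₀ h23 hqM h2 h3 hν2 hν3 hA P hP

/-- the inclusion `k(Z) → k(Z)(θ j̄)` is integral. -/
theorem ig_isIntegral_igIncl (hq : q.Prime) (k : Type) [Field k] [CharP k q] :
    (igIncl k M₀).toRingHom.IsIntegral := by
  obtain ⟨_, _, -, -, -, -, -, hφ⟩ := igram_setup M₀ q hq k
  exact hφ

/-- the inclusion `k(Z) → k(Z)(θ j̄)` is integral, `k` the residue field of `A ∣ q`. -/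
theorem ig_isIntegral_igIncl_res (hq : q.Prime) (hA : A.LiesOverPrime q) :
    (igIncl (IsLocalRing.ResidueField A) M₀).toRingHom.IsIntegral := by
  haveI : CharP (IsLocalRing.ResidueField A) q := charP_residueField_of_liesOverPrime A q hq hA
  exact ig_isIntegral_igIncl M₀ hq (IsLocalRing.ResidueField A)

variable (hq : q.Prime) (hqM : ¬ q ∣ M₀) (hν2 : nuTwo M₀ = 0) (hν3 : nuThree M₀ = 0)
  (h2 : q = 2 → 3 ∣ M₀) (h3 : q = 3 → 2 ∣ M₀) (hA : A.LiesOverPrime q)

include hq hqM hA in
/-- existence of a place over `P` (any place `P` of `k(Z)`). -/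
theorem ig_exists_place_over
    (P : Place (IsLocalRing.ResidueField A)
      ↥(modularFunctionFieldFullC (IsLocalRing.ResidueField A) M₀)) :
    ∃ Q : Place (IsLocalRing.ResidueField A) ↥(igField (IsLocalRing.ResidueField A) M₀),
      ∀ x : ↥(modularFunctionFieldFullC (IsLocalRing.ResidueField A) M₀), 0 < P.ord x →
        0 < Q.ord (igIncl (IsLocalRing.ResidueField A) M₀ x) := by
  haveI := isAlgClosed_residue A
  haveI : CharP (IsLocalRing.ResidueField A) q := charP_residueField_of_liesOverPrime A q hq hA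
  exact igram_exists_place_over M₀ q hq hqM (IsLocalRing.ResidueField A)
    (igRR M₀ q hq hqM (IsLocalRing.ResidueField A)) P

include hq hqM hν2 hν3 h2 h3 hA in
/-- uniqueness of the place over a supersingular place. -/
theorem ig_place_over_unique
    (P : Place (IsLocalRing.ResidueField A)
      ↥(modularFunctionFieldFullC (IsLocalRing.ResidueField A) M₀))
    (hP : IsSSPlace (IsLocalRing.ResidueField A) M₀ q P)
    (Q Q' : Place (IsLocalRing.ResidueField A) ↥(igField (IsLocalRing.ResidueField A) M₀))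
    (hQ : ∀ x : ↥(modularFunctionFieldFullC (IsLocalRing.ResidueField A) M₀), 0 < P.ord x →
      0 < Q.ord (igIncl (IsLocalRing.ResidueField A) M₀ x))
    (hQ' : ∀ x : ↥(modularFunctionFieldFullC (IsLocalRing.ResidueField A) M₀), 0 < P.ord x →
      0 < Q'.ord (igIncl (IsLocalRing.ResidueField A) M₀ x)) : Q = Q' := by
  haveI := isAlgClosed_residue A
  haveI : CharP (IsLocalRing.ResidueField A) q := charP_residueField_of_liesOverPrime A q hq hA
  exact igTotRam M₀ q hq hqM (IsLocalRing.ResidueField A) P hP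
    (igHnoAll M₀ hq hqM hν2 hν3 h2 h3 hA P hP) Q Q' hQ hQ'

/-- **the place of `k(Z)(θ j̄)` over the supersingular place `P`.** -/
def igPlace
    (P : Place (IsLocalRing.ResidueField A)
      ↥(modularFunctionFieldFullC (IsLocalRing.ResidueField A) M₀)) :
    Place (IsLocalRing.ResidueField A) ↥(igField (IsLocalRing.ResidueField A) M₀) :=
  Classical.choose (ig_exists_place_over M₀ hq hqM hA P)

theorem igPlace_over
    (P : Place (IsLocalRing.ResidueField A)
      ↥(modularFunctionFieldFullC (IsLocalRing.ResidueField A) M₀))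
    (x : ↥(modularFunctionFieldFullC (IsLocalRing.ResidueField A) M₀)) (hx : 0 < P.ord x) :
    0 < (igPlace M₀ hq hqM hA P).ord (igIncl (IsLocalRing.ResidueField A) M₀ x) :=
  Classical.choose_spec (ig_exists_place_over M₀ hq hqM hA P) x hx

include hν2 hν3 h2 h3 in
theorem igPlace_unique
    (P : Place (IsLocalRing.ResidueField A)
      ↥(modularFunctionFieldFullC (IsLocalRing.ResidueField A) M₀))
    (hP : IsSSPlace (IsLocalRing.ResidueField A) M₀ q P)
    (Q : Place (IsLocalRing.ResidueField A) ↥(igField (IsLocalRing.ResidueField A) M₀))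
    (hQ : ∀ x : ↥(modularFunctionFieldFullC (IsLocalRing.ResidueField A) M₀), 0 < P.ord x →
      0 < Q.ord (igIncl (IsLocalRing.ResidueField A) M₀ x)) :
    Q = igPlace M₀ hq hqM hA P :=
  ig_place_over_unique M₀ hq hqM hν2 hν3 h2 h3 hA P hP Q _ hQ (igPlace_over M₀ hq hqM hA P)

/-- a place `Q` of `k(Z)(θ j̄)` lies over `P` (positivity form) iff its restriction is `P`. -/
theorem ig_over_iff_restrict (k : Type) [Field k]
    (hφ : (igIncl k M₀).toRingHom.IsIntegral)
    (P : Place k ↥(modularFunctionFieldFullC k M₀)) (Q : Place k ↥(igField k M₀)) :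
    (∀ x : ↥(modularFunctionFieldFullC k M₀), 0 < P.ord x → 0 < Q.ord (igIncl k M₀ x)) ↔
      Q.restrictAlong (igIncl k M₀) hφ = P := by
  constructor
  · intro h
    refine igram_place_eq_of_pos P _ fun x hx => ?_
    exact (ord_map_pos_iff (igIncl k M₀) hφ Q x).mp (h x hx)
  · intro h x hx
    rw [← h] at hx
    exact (ord_map_pos_iff (igIncl k M₀) hφ Q x).mpr hx

/-- the restriction of `igPlace P` to `k(Z)` is `P`. -/
theorem igPlace_restrict
    (P : Place (IsLocalRing.ResidueField A)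
      ↥(modularFunctionFieldFullC (IsLocalRing.ResidueField A) M₀)) :
    (igPlace M₀ hq hqM hA P).restrictAlong (igIncl (IsLocalRing.ResidueField A) M₀)
      (ig_isIntegral_igIncl_res M₀ hq hA) = P :=
  (ig_over_iff_restrict M₀ (IsLocalRing.ResidueField A) (ig_isIntegral_igIncl_res M₀ hq hA)
    P _).mp (igPlace_over M₀ hq hqM hA P)

/-- `P ↦ igPlace P` is injective. -/
theorem igPlace_injective
    (P P' : Place (IsLocalRing.ResidueField A)
      ↥(modularFunctionFieldFullC (IsLocalRing.ResidueField A) M₀))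
    (h : igPlace M₀ hq hqM hA P = igPlace M₀ hq hqM hA P') : P = P' := by
  have e1 := igPlace_restrict M₀ hq hqM hA P
  have e2 := igPlace_restrict M₀ hq hqM hA P'
  rw [h] at e1
  exact e1.symm.trans e2

include hν2 hν3 h2 h3 in
/-- **total ramification**, `restrictAlong` form: the fibre over a supersingular place is
`{igPlace P}`. -/
theorem igPlace_eq_of_restrict
    (P : Place (IsLocalRing.ResidueField A)
      ↥(modularFunctionFieldFullC (IsLocalRing.ResidueField A) M₀))
    (hP : IsSSPlace (IsLocalRing.ResidueField A) M₀ q P)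
    (Q : Place (IsLocalRing.ResidueField A) ↥(igField (IsLocalRing.ResidueField A) M₀))
    (hQ : Q.restrictAlong (igIncl (IsLocalRing.ResidueField A) M₀)
        (ig_isIntegral_igIncl_res M₀ hq hA) = P) :
    Q = igPlace M₀ hq hqM hA P :=
  igPlace_unique M₀ hq hqM hν2 hν3 h2 h3 hA P hP Q
    ((ig_over_iff_restrict M₀ (IsLocalRing.ResidueField A)
      (ig_isIntegral_igIncl_res M₀ hq hA) P Q).mpr hQ)

end Places

end Fermat.Agent.S36G
end
end MergeWrap_S36_Igusa_Pack
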